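/-
PROJECT M, block [V] (S12/S09 endgame), slice (V2-map) step 3a (helper22): descent of points along
`K ⊆ Ω` (algebraically closed fields) for a finite `Aut(Ω/K)`-stable set of points.

Generalisation of main's `S13/CU/Descent.exists_baseChange_eq` (the case of the `n`-torsion) with
the same proof: the coordinates of the points of a finite stable set form a finite stable subset of
`Ω`, hence lie in `K` (`Descent.mem_range_of_finite_orbit`).
-/
import Mathlib
import Fermat.Agent.S13.CU.Descent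

set_option autoImplicit false

open scoped Classical

noncomputable section

namespace Fermat.Agent.S12.Velu.DescentSet

open WeierstrassCurve WeierstrassCurve.Affine Fermat.Agent.S13.CU.Descent

variable {R : Type*} [CommRing R] {W' : Affine R}
variable (F : Type*) {Ω : Type*} [Field F] [Field Ω] [DecidableEq F] [DecidableEq Ω]
  [Algebra R F] [Algebra R Ω] [Algebra F Ω] [IsScalarTower R F Ω]
  [IsAlgClosed F] [IsAlgClosed Ω]

/-- **Descent of a finite stable set of points.**  Every point of a finite set of points of `W'`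
over `Ω` which is stable under `Aut(Ω/F)` comes from a point over `F`. -/
theorem exists_baseChange_eq_of_finite_stable (T : Set (W'⁄Ω).Point) (hfin : T.Finite)
    (hstab : ∀ σ : Ω ≃ₐ[F] Ω, ∀ Q ∈ T, Point.map (σ : Ω →ₐ[F] Ω) Q ∈ T)
    {P : (W'⁄Ω).Point} (hP : P ∈ T) :
    ∃ P₀ : (W'⁄F).Point, Point.baseChange F Ω P₀ = P := by
  set S : Set Ω := xCoord W' Ω '' T ∪ yCoord W' Ω '' T with hS
  have hSfin : S.Finite := (hfin.image _).union (hfin.image _)
  have hSstab : ∀ σ : Ω ≃ₐ[F] Ω, ∀ y ∈ S, σ y ∈ S := by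
    rintro σ y (⟨Q, hQ, rfl⟩ | ⟨Q, hQ, rfl⟩)
    · exact Or.inl ⟨_, hstab σ Q hQ, xCoord_map F σ Q⟩
    · exact Or.inr ⟨_, hstab σ Q hQ, yCoord_map F σ Q⟩
  cases P with
  | zero => exact ⟨0, rfl⟩
  | some x y h =>
    have hx : x ∈ S := Or.inl ⟨_, hP, rfl⟩
    have hy : y ∈ S := Or.inr ⟨_, hP, rfl⟩
    obtain ⟨x₀, rfl⟩ := mem_range_of_finite_orbit S hSfin hSstab hx
    obtain ⟨y₀, rfl⟩ := mem_range_of_finite_orbit S hSfin hSstab hy
    have h₀ : (W'⁄F).Nonsingular x₀ y₀ :=
      (W'.baseChange_nonsingular (Algebra.ofId F Ω).injective x₀ y₀).mp h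
    exact ⟨.some x₀ y₀ h₀, rfl⟩

/-- A point fixed by `Aut(Ω/F)` comes from a point over `F`. -/
theorem exists_baseChange_eq_of_fixed {P : (W'⁄Ω).Point}
    (hP : ∀ σ : Ω ≃ₐ[F] Ω, Point.map (σ : Ω →ₐ[F] Ω) P = P) :
    ∃ P₀ : (W'⁄F).Point, Point.baseChange F Ω P₀ = P :=
  exists_baseChange_eq_of_finite_stable F {P} (Set.finite_singleton P)
    (fun σ Q hQ => by
      rw [Set.mem_singleton_iff] at hQ ⊢
      rw [hQ, hP σ]) (Set.mem_singleton P)

end Fermat.Agent.S12.Velu.DescentSet
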