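/-
PROJECT M, block [V] (S12/S09 endgame), slice (V2-map) step 4 (helper22): divisibility of the group
of points over an algebraically closed subfield of `ℂ`, and the dual of an isogeny "for free".

* `exists_nsmul_eq_complex` : `W(ℂ)` is divisible (`Δ ≠ 0`), from main's uniformisation;
* `exists_nsmul_eq` : `W'(F)` is divisible for an algebraically closed field `F ⊆ ℂ`
  (descent of the finite stable set `{R | n • R = P}`);
* `exists_dual` : a surjective homomorphism `φ` whose kernel is killed by `p` has a "dual" `ψ` with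
  `ψ ∘ φ = [p]`; `dual_equivariant` : `ψ` is equivariant if `φ` is.
-/
import Mathlib
import Fermat.Agent.S13.CU.MainC
import Fermat.Agent.S13.CU.UnifIso
import Fermat.Agent.S13.CU.Uniformize
import Fermat.Agent.S12.Velu.DescentSet

set_option autoImplicit false

open scoped Classical

noncomputable section

namespace Fermat.Agent.S12.Velu

open WeierstrassCurve WeierstrassCurve.Affine Fermat.Agent.S13.CU Fermat.Agent.S13.CU.Defs

/-- `W(ℂ)` is a divisible group. -/
theorem exists_nsmul_eq_complex (W : WeierstrassCurve ℂ) (hW : W.Δ ≠ 0) {n : ℕ} (hn : 0 < n)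
    (P : W.toAffine.Point) : ∃ R : W.toAffine.Point, n • R = P := by
  obtain ⟨L, ⟨e⟩⟩ := Uniformize.uniformized_of_disc_ne_zero
    (fun L => UnifIso.uniformized_shortOf L) W hW
  obtain ⟨z, hz⟩ := QuotientAddGroup.mk_surjective (e.symm P)
  refine ⟨e (QuotientAddGroup.mk (z / n)), ?_⟩
  rw [← map_nsmul, ← QuotientAddGroup.mk_nsmul, nsmul_eq_mul,
    mul_div_cancel₀ z (by exact_mod_cast hn.ne'), hz, AddEquiv.apply_symm_apply]

section Descent

variable {R : Type*} [CommRing R] (W' : Affine R)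
variable (F : Type*) [Field F] [DecidableEq F] [Algebra R F] [Algebra R ℂ] [Algebra F ℂ]
  [IsScalarTower R F ℂ] [IsAlgClosed F]

/-- `W'(F)` is divisible for an algebraically closed field `F ⊆ ℂ`. -/
theorem exists_nsmul_eq (hW : (W'.baseChange ℂ).Δ ≠ 0) {n : ℕ} (hn : 0 < n)
    (P : (W'⁄F).Point) : ∃ Q : (W'⁄F).Point, n • Q = P := by
  obtain ⟨Rc, hRc⟩ := exists_nsmul_eq_complex (W'.baseChange ℂ) hW hn (Point.baseChange F ℂ P)
  let T : Set (W'⁄ℂ).Point := {Q | n • Q = Point.baseChange F ℂ P}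
  have htors : Finite (Submodule.torsionBy ℤ (W'.baseChange ℂ).toAffine.Point n) :=
    (MainC.torsionCard_of_disc_ne_zero (W'.baseChange ℂ) hW hn).finite hn
  have hTfin : T.Finite := by
    have hsub : T ⊆ (fun Q => Rc + Q) ''
        (Submodule.torsionBy ℤ (W'.baseChange ℂ).toAffine.Point n : Set (W'⁄ℂ).Point) := by
      intro Q hQ
      refine ⟨Q - Rc, ?_, by show Rc + (Q - Rc) = Q; abel⟩
      rw [SetLike.mem_coe, Submodule.mem_torsionBy_iff, natCast_zsmul, nsmul_sub,
        show n • Q = _ from hQ, hRc, sub_self]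
    exact (Set.Finite.image _ (Set.finite_coe_iff.mp htors)).subset hsub
  have hTstab : ∀ σ : ℂ ≃ₐ[F] ℂ, ∀ Q ∈ T, Point.map (σ : ℂ →ₐ[F] ℂ) Q ∈ T := by
    intro σ Q hQ
    show n • Point.map (σ : ℂ →ₐ[F] ℂ) Q = _
    rw [← map_nsmul, show n • Q = _ from hQ, Point.map_baseChange]
  obtain ⟨R₀, hR₀⟩ := DescentSet.exists_baseChange_eq_of_finite_stable F T hTfin hTstab
    (show Rc ∈ T from hRc)
  refine ⟨R₀, ?_⟩
  apply Point.map_injective (W' := W') (Algebra.ofId F ℂ)
  show Point.baseChange F ℂ (n • R₀) = Point.baseChange F ℂ P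
  rw [map_nsmul, hR₀, hRc]

end Descent

section Dual

variable {G H : Type*} [AddCommGroup G] [AddCommGroup H]

/-- A surjective homomorphism whose kernel is killed by `p` has a dual `ψ` with `ψ ∘ φ = [p]`. -/
theorem exists_dual (φ : G →+ H) (hφ : Function.Surjective φ) (p : ℕ)
    (hker : ∀ x, φ x = 0 → p • x = 0) : ∃ ψ : H →+ G, ∀ x, ψ (φ x) = p • x := by
  let e : G ⧸ φ.ker ≃+ H := QuotientAddGroup.quotientKerEquivOfSurjective φ hφ
  let m : G →+ G := nsmulAddMonoidHom p
  have hm : φ.ker ≤ m.ker := fun x hx => hker x hx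
  let l : G ⧸ φ.ker →+ G := QuotientAddGroup.lift φ.ker m hm
  refine ⟨l.comp e.symm.toAddMonoidHom, fun x => ?_⟩
  have h1 : e.symm (φ x) = (x : G ⧸ φ.ker) := by
    rw [AddEquiv.symm_apply_eq]
    rfl
  simp only [AddMonoidHom.comp_apply, AddEquiv.coe_toAddMonoidHom]
  rw [h1]
  rfl

/-- The dual is equivariant when `φ` is, for any actions by additive automorphisms. -/
theorem dual_equivariant {M : Type*} [Monoid M] [DistribMulAction M G] [DistribMulAction M H]
    {φ : G →+ H} (hφ : Function.Surjective φ) {p : ℕ} {ψ : H →+ G}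
    (hψ : ∀ x, ψ (φ x) = p • x) (hequiv : ∀ (σ : M) (x : G), φ (σ • x) = σ • φ x)
    (σ : M) (y : H) : ψ (σ • y) = σ • ψ y := by
  obtain ⟨x, rfl⟩ := hφ y
  rw [← hequiv, hψ, hψ, smul_comm]

end Dual

end Fermat.Agent.S12.Velu
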