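/-
PROJECT M, block [V] (S12/S09 endgame), slice (V2-map) step 3b (helper22): Vélu isogenies and
their descent along an extension `F ⊆ Ω` of algebraically closed fields.

* `IsVeluIsog W V C φ` : `φ : W(K) →+ V(K)` is surjective with kernel the subgroup `C`, and is given
  outside `C` by Vélu's coordinate formulas
  `x(φ P) = x(P) + ∑_{0 ≠ Q ∈ C} (x(P - Q) - x(Q))`, `y(φ P) = y(P) + ∑_{0 ≠ Q ∈ C} y(P - Q)`;
* `IsVeluIsog.map_comm` : such a `φ` over `Ω` commutes with every `σ ∈ Aut(Ω/F)` as soon as the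
  kernel consists of `F`-rational points;
* `exists_isVeluIsog_of_baseChange` : **descent**: if the base change to `Ω` of the pair
  `(W', V')` with kernel `C ⊆ W'(F)` carries a Vélu isogeny, so does the pair over `F`.

Pure algebra; the analytic input (existence over `ℂ`) is `Velu/IsogC`.
-/
import Mathlib
import Fermat.Agent.S13.Local.NodalInst
import Fermat.Agent.S12.Velu.DescentSet

set_option autoImplicit false

open scoped Classical

noncomputable section

namespace Fermat.Agent.S12.Velu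

open WeierstrassCurve WeierstrassCurve.Affine Fermat.Agent.S13.Local.NodalInst

/-- `φ` is a Vélu isogeny from `W` to `V` with kernel `C`. -/
structure IsVeluIsog {K : Type*} [Field K] [DecidableEq K] (W V : WeierstrassCurve K)
    (C : AddSubgroup W.toAffine.Point) (φ : W.toAffine.Point →+ V.toAffine.Point) : Prop where
  surj : Function.Surjective φ
  ker : ∀ P, φ P = 0 ↔ P ∈ C
  x_eq : ∀ P, P ∉ C → ptX V (φ P) = ptX W P +
    ∑ᶠ Q ∈ (C : Set W.toAffine.Point) \ {0}, (ptX W (P - Q) - ptX W Q)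
  y_eq : ∀ P, P ∉ C → ptY V (φ P) = ptY W P +
    ∑ᶠ Q ∈ (C : Set W.toAffine.Point) \ {0}, ptY W (P - Q)

section Map

variable {R : Type*} [CommRing R] {W' : Affine R}
variable {S F K : Type*} [CommRing S] [Field F] [Field K] [DecidableEq F] [DecidableEq K]
  [Algebra R S] [Algebra R F] [Algebra S F] [IsScalarTower R S F] [Algebra R K] [Algebra S K]
  [IsScalarTower R S K]

theorem ptX_map (f : F →ₐ[S] K) (P : (W'⁄F).Point) :
    ptX (W'.baseChange K) (Point.map f P) = f (ptX (W'.baseChange F) P) := by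
  cases P with
  | zero => exact (map_zero f).symm
  | some x y h => rfl

theorem ptY_map (f : F →ₐ[S] K) (P : (W'⁄F).Point) :
    ptY (W'.baseChange K) (Point.map f P) = f (ptY (W'.baseChange F) P) := by
  cases P with
  | zero => exact (map_zero f).symm
  | some x y h => rfl

end Map

/-- A ring homomorphism commutes with a finite `finsum`. -/
theorem ringHom_finsum_mem {A B ι : Type*} [Semiring A] [Semiring B] (g : A →+* B) (f : ι → A)
    {s : Set ι} (hs : s.Finite) : g (∑ᶠ i ∈ s, f i) = ∑ᶠ i ∈ s, g (f i) :=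
  g.toAddMonoidHom.map_finsum_mem f hs

section Descent

variable {R : Type*} [CommRing R] {W' V' : Affine R}
variable {F Ω : Type*} [Field F] [Field Ω] [DecidableEq F] [DecidableEq Ω]
  [Algebra R F] [Algebra R Ω] [Algebra F Ω] [IsScalarTower R F Ω]

/-- The image in `W'(Ω)` of a subgroup of `W'(F)`. -/
def bcSubgroup (C : AddSubgroup (W'⁄F).Point) : AddSubgroup (W'⁄Ω).Point :=
  C.map (Point.baseChange F Ω : (W'⁄F).Point →+ (W'⁄Ω).Point)

theorem mem_bcSubgroup {C : AddSubgroup (W'⁄F).Point} {P : (W'⁄Ω).Point} :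
    P ∈ bcSubgroup (Ω := Ω) C ↔ ∃ P₀ ∈ C, Point.baseChange F Ω P₀ = P := by
  unfold bcSubgroup
  rw [AddSubgroup.mem_map]

theorem baseChange_mem_bcSubgroup {C : AddSubgroup (W'⁄F).Point} {P₀ : (W'⁄F).Point} :
    Point.baseChange F Ω P₀ ∈ bcSubgroup (Ω := Ω) C ↔ P₀ ∈ C := by
  rw [mem_bcSubgroup]
  constructor
  · rintro ⟨Q₀, hQ₀, h⟩
    have := Point.map_injective (W' := W') (Algebra.ofId F Ω) h
    rwa [← this]
  · intro h
    exact ⟨P₀, h, rfl⟩

/-- Points of `bcSubgroup C` are fixed by `Aut(Ω/F)`. -/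
theorem map_of_mem_bcSubgroup {C : AddSubgroup (W'⁄F).Point} (σ : Ω ≃ₐ[F] Ω)
    {P : (W'⁄Ω).Point} (hP : P ∈ bcSubgroup (Ω := Ω) C) :
    Point.map (σ : Ω →ₐ[F] Ω) P = P := by
  obtain ⟨P₀, -, rfl⟩ := mem_bcSubgroup.mp hP
  exact Point.map_baseChange (σ : Ω →ₐ[F] Ω) P₀

theorem finite_bcSubgroup {C : AddSubgroup (W'⁄F).Point} (hC : (C : Set (W'⁄F).Point).Finite) :
    (bcSubgroup (Ω := Ω) C : Set (W'⁄Ω).Point).Finite := by
  have : (bcSubgroup (Ω := Ω) C : Set (W'⁄Ω).Point) =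
      (Point.baseChange F Ω : (W'⁄F).Point →+ (W'⁄Ω).Point) '' (C : Set (W'⁄F).Point) := by
    ext P
    rw [SetLike.mem_coe, mem_bcSubgroup, Set.mem_image]
    rfl
  rw [this]
  exact hC.image _

/-- `σ⁻¹ ∘ σ` on points. -/
theorem map_symm_map (σ : Ω ≃ₐ[F] Ω) (P : (W'⁄Ω).Point) :
    Point.map ((σ.symm : Ω ≃ₐ[F] Ω) : Ω →ₐ[F] Ω) (Point.map (σ : Ω →ₐ[F] Ω) P) = P := by
  cases P with
  | zero => rfl
  | some x y h =>
    rw [Point.map_some, Point.map_some]
    congr 1
    · exact σ.symm_apply_apply x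
    · exact σ.symm_apply_apply y

variable {C : AddSubgroup (W'⁄F).Point}
  {φc : (W'⁄Ω).Point →+ (V'⁄Ω).Point}

/-- A Vélu isogeny over `Ω` whose kernel consists of `F`-rational points commutes with
`Aut(Ω/F)`. -/
theorem IsVeluIsog.map_comm (hC : (C : Set (W'⁄F).Point).Finite)
    (hφ : IsVeluIsog (W'.baseChange Ω) (V'.baseChange Ω) (bcSubgroup C) φc)
    (σ : Ω ≃ₐ[F] Ω) (P : (W'⁄Ω).Point) :
    φc (Point.map (σ : Ω →ₐ[F] Ω) P) = Point.map (σ : Ω →ₐ[F] Ω) (φc P) := by
  by_cases hP : P ∈ bcSubgroup (Ω := Ω) C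
  · rw [map_of_mem_bcSubgroup σ hP, (hφ.ker P).mpr hP]
    rfl
  · have hσP : Point.map (σ : Ω →ₐ[F] Ω) P ∉ bcSubgroup (Ω := Ω) C := by
      intro h
      apply hP
      have h1 := map_of_mem_bcSubgroup σ.symm h
      rw [map_symm_map] at h1
      rw [h1]
      exact h
    have hne1 : φc (Point.map (σ : Ω →ₐ[F] Ω) P) ≠ 0 := fun h0 => hσP ((hφ.ker _).mp h0)
    have hne2 : Point.map (σ : Ω →ₐ[F] Ω) (φc P) ≠ 0 := by
      intro h0
      apply hP
      apply (hφ.ker P).mp
      have h1 : Point.map (σ : Ω →ₐ[F] Ω) (φc P) = Point.map (σ : Ω →ₐ[F] Ω) 0 := by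
        rw [h0]; rfl
      exact Point.map_injective _ h1
    have hfin : ((bcSubgroup (Ω := Ω) C : Set (W'⁄Ω).Point) \ {0}).Finite :=
      (finite_bcSubgroup hC).subset Set.sdiff_subset
    have hσQ : ∀ Q ∈ (bcSubgroup (Ω := Ω) C : Set (W'⁄Ω).Point) \ {0},
        Point.map (σ : Ω →ₐ[F] Ω) Q = Q := fun Q hQ => map_of_mem_bcSubgroup σ hQ.1
    have hg : ∀ a : Ω, (σ : Ω →ₐ[F] Ω) a = ((σ : Ω →ₐ[F] Ω) : Ω →+* Ω) a := fun _ => rfl
    refine pt_ext hne1 hne2 ?_ ?_
    · have e2 : ptX (V'.baseChange Ω) (Point.map (σ : Ω →ₐ[F] Ω) (φc P)) =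
          (σ : Ω →ₐ[F] Ω) (ptX (V'.baseChange Ω) (φc P)) := ptX_map _ _
      rw [hφ.x_eq _ hσP, e2, hφ.x_eq _ hP, map_add, hg (finsum _),
        ringHom_finsum_mem _ _ hfin]
      congr 1
      · exact ptX_map _ _
      · refine finsum_mem_congr rfl fun Q hQ => ?_
        rw [← hg, map_sub, ← ptX_map, ← ptX_map, map_sub, hσQ Q hQ]
    · have e2 : ptY (V'.baseChange Ω) (Point.map (σ : Ω →ₐ[F] Ω) (φc P)) =
          (σ : Ω →ₐ[F] Ω) (ptY (V'.baseChange Ω) (φc P)) := ptY_map _ _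
      rw [hφ.y_eq _ hσP, e2, hφ.y_eq _ hP, map_add, hg (finsum _),
        ringHom_finsum_mem _ _ hfin]
      congr 1
      · exact ptY_map _ _
      · refine finsum_mem_congr rfl fun Q hQ => ?_
        rw [← hg, ← ptY_map, map_sub, hσQ Q hQ]

variable [IsAlgClosed F] [IsAlgClosed Ω]

/-- **Descent of a Vélu isogeny.** -/
theorem exists_isVeluIsog_of_baseChange (hC : (C : Set (W'⁄F).Point).Finite)
    (hφ : IsVeluIsog (W'.baseChange Ω) (V'.baseChange Ω) (bcSubgroup C) φc) :
    ∃ φ : (W'⁄F).Point →+ (V'⁄F).Point,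
      IsVeluIsog (W'.baseChange F) (V'.baseChange F) C φ ∧
        ∀ P, Point.baseChange F Ω (φ P) = φc (Point.baseChange F Ω P) := by
  -- the image of a rational point is rational
  have hex : ∀ P : (W'⁄F).Point, ∃ P' : (V'⁄F).Point,
      Point.baseChange F Ω P' = φc (Point.baseChange F Ω P) := by
    intro P
    apply DescentSet.exists_baseChange_eq_of_fixed F
    intro σ
    rw [← hφ.map_comm hC σ, Point.map_baseChange]
  choose f hf using hex
  have hinj : Function.Injective (Point.baseChange F Ω : (V'⁄F).Point →+ (V'⁄Ω).Point) :=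
    Point.map_injective (W' := V') (Algebra.ofId F Ω)
  have hinjW : Function.Injective (Point.baseChange F Ω : (W'⁄F).Point →+ (W'⁄Ω).Point) :=
    Point.map_injective (W' := W') (Algebra.ofId F Ω)
  let φ : (W'⁄F).Point →+ (V'⁄F).Point :=
    { toFun := f
      map_zero' := by
        apply hinj
        rw [hf, map_zero, map_zero, map_zero]
      map_add' := fun P Q => by
        apply hinj
        rw [hf, map_add, map_add, map_add, hf, hf] }
  have hφf : ∀ P, Point.baseChange F Ω (φ P) = φc (Point.baseChange F Ω P) := hf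
  have hfinc : ((bcSubgroup (Ω := Ω) C : Set (W'⁄Ω).Point) \ {0}).Finite :=
    (finite_bcSubgroup hC).subset Set.sdiff_subset
  have hfin0 : ((C : Set (W'⁄F).Point) \ {0}).Finite := hC.subset Set.sdiff_subset
  -- re-indexing the sums over the kernel
  have himg : (bcSubgroup (Ω := Ω) C : Set (W'⁄Ω).Point) \ {0} =
      (Point.baseChange F Ω : (W'⁄F).Point →+ (W'⁄Ω).Point) '' ((C : Set (W'⁄F).Point) \ {0}) := by
    ext Q
    constructor
    · rintro ⟨hQ, hQ0⟩
      obtain ⟨Q₀, hQ₀, rfl⟩ := mem_bcSubgroup.mp hQ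
      refine ⟨Q₀, ⟨hQ₀, ?_⟩, rfl⟩
      intro h0
      apply hQ0
      rw [Set.mem_singleton_iff] at h0 ⊢
      rw [h0, map_zero]
    · rintro ⟨Q₀, ⟨hQ₀, hQ0⟩, rfl⟩
      refine ⟨mem_bcSubgroup.mpr ⟨Q₀, hQ₀, rfl⟩, ?_⟩
      intro h0
      apply hQ0
      rw [Set.mem_singleton_iff] at h0 ⊢
      apply hinjW
      rw [h0, map_zero]
  have halg : Function.Injective (algebraMap F Ω) := (algebraMap F Ω).injective
  refine ⟨φ, ⟨?_, ?_, ?_, ?_⟩, hφf⟩
  · -- surjectivity
    intro P'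
    obtain ⟨Rc, hRc⟩ := hφ.surj (Point.baseChange F Ω P')
    let T : Set (W'⁄Ω).Point := {R | φc R = Point.baseChange F Ω P'}
    have hTfin : T.Finite := by
      have hsub : T ⊆ (fun Q => Rc + Q) '' (bcSubgroup (Ω := Ω) C : Set (W'⁄Ω).Point) := by
        intro R hR
        refine ⟨R - Rc, ?_, by show Rc + (R - Rc) = R; abel⟩
        apply (hφ.ker _).mp
        rw [map_sub, show φc R = _ from hR, hRc, sub_self]
      exact ((finite_bcSubgroup hC).image _).subset hsub
    have hTstab : ∀ σ : Ω ≃ₐ[F] Ω, ∀ Q ∈ T, Point.map (σ : Ω →ₐ[F] Ω) Q ∈ T := by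
      intro σ Q hQ
      show φc (Point.map (σ : Ω →ₐ[F] Ω) Q) = _
      rw [hφ.map_comm hC σ, show φc Q = _ from hQ, Point.map_baseChange]
    obtain ⟨R₀, hR₀⟩ := DescentSet.exists_baseChange_eq_of_finite_stable F T hTfin hTstab
      (show Rc ∈ T from hRc)
    refine ⟨R₀, ?_⟩
    apply hinj
    rw [hφf, hR₀, hRc]
  · -- kernel
    intro P
    rw [← baseChange_mem_bcSubgroup (Ω := Ω), ← hφ.ker, ← hφf]
    constructor
    · intro h
      rw [h, map_zero]
    · intro h
      apply hinj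
      rw [h, map_zero]
  · -- the `x`-formula
    intro P hP
    have hPc : Point.baseChange F Ω P ∉ bcSubgroup (Ω := Ω) C := fun h =>
      hP (baseChange_mem_bcSubgroup.mp h)
    apply halg
    have h1 := hφ.x_eq _ hPc
    rw [← hφf, himg, finsum_mem_image (hinjW.injOn)] at h1
    have e1 : algebraMap F Ω (ptX (V'.baseChange F) (φ P)) =
        ptX (V'.baseChange Ω) (Point.baseChange F Ω (φ P)) := (ptX_map (Algebra.ofId F Ω) _).symm
    rw [e1, h1, map_add, ringHom_finsum_mem _ _ hfin0]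
    congr 1
    · exact ptX_map (Algebra.ofId F Ω) P
    · refine finsum_mem_congr rfl fun Q _ => ?_
      rw [map_sub, ← map_sub (Point.baseChange F Ω)]
      congr 1
      · exact ptX_map (Algebra.ofId F Ω) (P - Q)
      · exact ptX_map (Algebra.ofId F Ω) Q
  · -- the `y`-formula
    intro P hP
    have hPc : Point.baseChange F Ω P ∉ bcSubgroup (Ω := Ω) C := fun h =>
      hP (baseChange_mem_bcSubgroup.mp h)
    apply halg
    have h1 := hφ.y_eq _ hPc
    rw [← hφf, himg, finsum_mem_image (hinjW.injOn)] at h1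
    have e1 : algebraMap F Ω (ptY (V'.baseChange F) (φ P)) =
        ptY (V'.baseChange Ω) (Point.baseChange F Ω (φ P)) := (ptY_map (Algebra.ofId F Ω) _).symm
    rw [e1, h1, map_add, ringHom_finsum_mem _ _ hfin0]
    congr 1
    · exact ptY_map (Algebra.ofId F Ω) P
    · refine finsum_mem_congr rfl fun Q _ => ?_
      rw [← map_sub (Point.baseChange F Ω)]
      exact ptY_map (Algebra.ofId F Ω) (P - Q)

end Descent

end Fermat.Agent.S12.Velu

namespace Fermat.Agent.S12.Velu

open WeierstrassCurve WeierstrassCurve.Affine Fermat.Agent.S13.Local.NodalInst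

section Equivariant

variable {R : Type*} [CommRing R] {W' V' : Affine R}
variable {S F : Type*} [CommRing S] [Field F] [DecidableEq F]
  [Algebra R S] [Algebra R F] [Algebra S F] [IsScalarTower R S F]

/-- `σ⁻¹ ∘ σ` on points, for automorphisms over `S`. -/
theorem map_symm_map' (σ : F ≃ₐ[S] F) (P : (W'⁄F).Point) :
    Point.map ((σ.symm : F ≃ₐ[S] F) : F →ₐ[S] F) (Point.map (σ : F →ₐ[S] F) P) = P := by
  cases P with
  | zero => rfl
  | some x y h =>
    rw [Point.map_some, Point.map_some]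
    congr 1
    · exact σ.symm_apply_apply x
    · exact σ.symm_apply_apply y

theorem map_map_symm' (σ : F ≃ₐ[S] F) (P : (W'⁄F).Point) :
    Point.map (σ : F →ₐ[S] F) (Point.map ((σ.symm : F ≃ₐ[S] F) : F →ₐ[S] F) P) = P := by
  cases P with
  | zero => rfl
  | some x y h =>
    rw [Point.map_some, Point.map_some]
    congr 1
    · exact σ.apply_symm_apply x
    · exact σ.apply_symm_apply y

variable {C : AddSubgroup (W'⁄F).Point} {φ : (W'⁄F).Point →+ (V'⁄F).Point}

/-- **Galois equivariance.**  A Vélu isogeny between curves defined over `R` commutes with every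
automorphism `σ` of `F` over `S ⊇ R` which stabilises the (finite) kernel. -/
theorem IsVeluIsog.map_comm_of_stable (hC : (C : Set (W'⁄F).Point).Finite)
    (hφ : IsVeluIsog (W'.baseChange F) (V'.baseChange F) C φ) (σ : F ≃ₐ[S] F)
    (hσ : ∀ Q ∈ C, Point.map (σ : F →ₐ[S] F) Q ∈ C) (P : (W'⁄F).Point) :
    φ (Point.map (σ : F →ₐ[S] F) P) = Point.map (σ : F →ₐ[S] F) (φ P) := by
  -- `σ` permutes the finite kernel
  have hinjσ : Function.Injective (Point.map (σ : F →ₐ[S] F) : (W'⁄F).Point → (W'⁄F).Point) :=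
    Point.map_injective _
  have hσ' : ∀ Q, Point.map (σ : F →ₐ[S] F) Q ∈ C → Q ∈ C := by
    -- an injective self-map of a finite set is surjective
    have hmaps : Set.MapsTo (Point.map (σ : F →ₐ[S] F) : (W'⁄F).Point → (W'⁄F).Point)
        (C : Set (W'⁄F).Point) (C : Set (W'⁄F).Point) := fun Q hQ => hσ Q hQ
    have hsurj : Set.SurjOn (Point.map (σ : F →ₐ[S] F) : (W'⁄F).Point → (W'⁄F).Point)
        (C : Set (W'⁄F).Point) (C : Set (W'⁄F).Point) :=
      ((hC.injOn_iff_bijOn_of_mapsTo hmaps).mp hinjσ.injOn).surjOn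
    intro Q hQ
    obtain ⟨Q', hQ', hQQ'⟩ := hsurj hQ
    rw [← hinjσ hQQ']
    exact hQ'
  by_cases hP : P ∈ C
  · rw [(hφ.ker _).mpr (hσ P hP), (hφ.ker P).mpr hP]
    rfl
  · have hσP : Point.map (σ : F →ₐ[S] F) P ∉ C := fun h => hP (hσ' P h)
    have hne1 : φ (Point.map (σ : F →ₐ[S] F) P) ≠ 0 := fun h0 => hσP ((hφ.ker _).mp h0)
    have hne2 : Point.map (σ : F →ₐ[S] F) (φ P) ≠ 0 := by
      intro h0
      apply hP
      apply (hφ.ker P).mp
      have h1 : Point.map (σ : F →ₐ[S] F) (φ P) = Point.map (σ : F →ₐ[S] F) 0 := by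
        rw [h0]; rfl
      exact Point.map_injective _ h1
    have hfin : ((C : Set (W'⁄F).Point) \ {0}).Finite := hC.subset Set.sdiff_subset
    have hg : ∀ a : F, (σ : F →ₐ[S] F) a = ((σ : F →ₐ[S] F) : F →+* F) a := fun _ => rfl
    -- `σ` is a bijection of `C \ {0}`
    have hbij : Set.BijOn (Point.map (σ : F →ₐ[S] F) : (W'⁄F).Point → (W'⁄F).Point)
        ((C : Set (W'⁄F).Point) \ {0}) ((C : Set (W'⁄F).Point) \ {0}) := by
      refine ⟨?_, hinjσ.injOn, ?_⟩
      · rintro Q ⟨hQ, hQ0⟩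
        refine ⟨hσ Q hQ, ?_⟩
        intro h0
        apply hQ0
        rw [Set.mem_singleton_iff] at h0 ⊢
        apply hinjσ
        rw [h0]; rfl
      · rintro Q ⟨hQ, hQ0⟩
        refine ⟨Point.map ((σ.symm : F ≃ₐ[S] F) : F →ₐ[S] F) Q, ⟨?_, ?_⟩, map_map_symm' σ Q⟩
        · apply hσ'
          rw [map_map_symm']
          exact hQ
        · intro h0
          apply hQ0
          rw [Set.mem_singleton_iff] at h0 ⊢
          rw [← map_map_symm' σ Q, h0]
          rfl
    refine pt_ext hne1 hne2 ?_ ?_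
    · have e2 : ptX (V'.baseChange F) (Point.map (σ : F →ₐ[S] F) (φ P)) =
          (σ : F →ₐ[S] F) (ptX (V'.baseChange F) (φ P)) := ptX_map _ _
      rw [hφ.x_eq _ hσP, e2, hφ.x_eq _ hP, map_add, hg (finsum _),
        ringHom_finsum_mem _ _ hfin]
      congr 1
      · exact ptX_map _ _
      · rw [← finsum_mem_eq_of_bijOn _ hbij (fun Q _ => rfl)]
        refine finsum_mem_congr rfl fun Q _ => ?_
        rw [← hg, map_sub, ← ptX_map, ← ptX_map, map_sub]
    · have e2 : ptY (V'.baseChange F) (Point.map (σ : F →ₐ[S] F) (φ P)) =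
          (σ : F →ₐ[S] F) (ptY (V'.baseChange F) (φ P)) := ptY_map _ _
      rw [hφ.y_eq _ hσP, e2, hφ.y_eq _ hP, map_add, hg (finsum _),
        ringHom_finsum_mem _ _ hfin]
      congr 1
      · exact ptY_map _ _
      · rw [← finsum_mem_eq_of_bijOn _ hbij (fun Q _ => rfl)]
        refine finsum_mem_congr rfl fun Q _ => ?_
        rw [← hg, ← ptY_map, map_sub]

end Equivariant

end Fermat.Agent.S12.Velu
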