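/-
PROJECT M, block [V] (S12/S09 endgame), slice (V2-map) step 7 (helper22): the quotient of a short
curve over `ℚ` by a Galois-stable subgroup of prime order, with all maps on `ℚ̄`-points.

* `veluT_pointMap`, `veluW_pointMap`, `veluCurve_pointMap` : Vélu's numbers commute with
  `Point.map f` (Mathlib's functoriality of points), for a curve defined over the base `R`;
* `exists_rat_velu` : for `W'` over `ℚ` and `C ≤ W'(ℚ̄)` finite and Galois-stable there is `V'` over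
  `ℚ` with `V'⁄ℚ̄ = veluCurve (W'⁄ℚ̄) C` and `V'⁄ℂ = veluCurve (W'⁄ℂ) (bcSubgroup C)`;
* `exists_quotient` : **(V2-map)**.  For `W'` short over `ℚ` with `Δ ≠ 0` and `C` Galois-stable of
  prime order `p`: a short `V'` over `ℚ` with `Δ ≠ 0`, `V'⁄ℚ̄ = veluCurve (W'⁄ℚ̄) C`, a Vélu
  isogeny `φ : W'(ℚ̄) → V'(ℚ̄)` with kernel `C` (surjective, Galois-equivariant), and an
  equivariant `ψ : V'(ℚ̄) → W'(ℚ̄)` with `ψ ∘ φ = [p]`.
-/
import Mathlib
import Fermat.Agent.S12.Velu.ExistsC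
import Fermat.Agent.S12.Velu.IsogK
import Fermat.Agent.S12.Velu.Divisible
import Fermat.Agent.S15.E1.Transport
import Fermat.Agent.S13.Local.RationalCoords
import Fermat.Agent.S13.CU.Descent

set_option autoImplicit false

noncomputable section

namespace Fermat.Agent.S12.Velu.ModelQ

open WeierstrassCurve WeierstrassCurve.Affine Fermat.Agent.S13.Local.NodalInst
open Fermat.Agent.S15.Velu Fermat.Agent.S15.E1.Transport Fermat.Agent.S12.Velu

section Map

variable {R : Type*} [CommRing R] {W' : Affine R}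
variable {S F K : Type*} [CommRing S] [Field F] [Field K] [DecidableEq F] [DecidableEq K]
  [Algebra R S] [Algebra R F] [Algebra S F] [IsScalarTower R S F] [Algebra R K] [Algebra S K]
  [IsScalarTower R S K]

theorem algHom_algebraMap (f : F →ₐ[S] K) (r : R) : f (algebraMap R F r) = algebraMap R K r := by
  rw [IsScalarTower.algebraMap_apply R S F, f.commutes, ← IsScalarTower.algebraMap_apply]

theorem tTerm_pointMap (f : F →ₐ[S] K) (x : F) :
    tTerm (W'.baseChange K) (f x) = f (tTerm (W'.baseChange F) x) := by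
  simp only [tTerm_def, WeierstrassCurve.baseChange, WeierstrassCurve.map_b₂,
    WeierstrassCurve.map_b₄, map_add, map_mul, map_pow, map_ofNat, algHom_algebraMap]

theorem wTerm_pointMap (f : F →ₐ[S] K) (x : F) :
    wTerm (W'.baseChange K) (f x) = f (wTerm (W'.baseChange F) x) := by
  simp only [wTerm_def, WeierstrassCurve.baseChange, WeierstrassCurve.map_b₂,
    WeierstrassCurve.map_b₄, WeierstrassCurve.map_b₆, map_add, map_mul, map_pow, map_ofNat,
    algHom_algebraMap]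

theorem pointMap_image_diff_zero (f : F →ₐ[S] K) (C : Set (W'⁄F).Point) :
    ((Point.map f : (W'⁄F).Point →+ (W'⁄K).Point) '' C) \ {0}
      = (Point.map f : (W'⁄F).Point →+ (W'⁄K).Point) '' (C \ {0}) := by
  ext Q
  constructor
  · rintro ⟨⟨P, hP, rfl⟩, h0⟩
    refine ⟨P, ⟨hP, fun h => h0 ?_⟩, rfl⟩
    rw [Set.mem_singleton_iff] at h ⊢
    rw [h, map_zero]
  · rintro ⟨P, ⟨hP, hP0⟩, rfl⟩
    refine ⟨⟨P, hP, rfl⟩, fun h => hP0 ?_⟩
    rw [Set.mem_singleton_iff] at h ⊢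
    exact Point.map_injective f (by rw [h, map_zero])

theorem finsum_pointMap (f : F →ₐ[S] K) (C : Set (W'⁄F).Point) (g : F → F) (g' : K → K)
    (hg : ∀ x, g' (f x) = f (g x)) :
    ∑ᶠ Q ∈ ((Point.map f : (W'⁄F).Point →+ (W'⁄K).Point) '' C) \ {0},
        g' (ptX (W'.baseChange K) Q)
      = f (∑ᶠ P ∈ C \ {0}, g (ptX (W'.baseChange F) P)) := by
  have h := map_finsum_mem_of_injective (f : F →+* K).toAddMonoidHom
    (f : F →+* K).injective (C \ {0}) (fun P => g (ptX (W'.baseChange F) P))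
  rw [pointMap_image_diff_zero, finsum_mem_image ((Point.map_injective f).injOn)]
  refine Eq.trans (finsum_mem_congr rfl fun P _ => ?_) h.symm
  rw [ptX_map, hg]
  rfl

theorem veluT_pointMap (f : F →ₐ[S] K) (C : Set (W'⁄F).Point) :
    veluT (W'.baseChange K) ((Point.map f : (W'⁄F).Point →+ (W'⁄K).Point) '' C)
      = f (veluT (W'.baseChange F) C) := by
  unfold veluT
  rw [finsum_pointMap f C (tTerm (W'.baseChange F)) (tTerm (W'.baseChange K))
    (tTerm_pointMap f), map_div₀, map_ofNat]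

theorem veluW_pointMap (f : F →ₐ[S] K) (C : Set (W'⁄F).Point) :
    veluW (W'.baseChange K) ((Point.map f : (W'⁄F).Point →+ (W'⁄K).Point) '' C)
      = f (veluW (W'.baseChange F) C) := by
  unfold veluW
  rw [finsum_pointMap f C (wTerm (W'.baseChange F)) (wTerm (W'.baseChange K))
    (wTerm_pointMap f), map_div₀, map_ofNat]

end Map

section Rat

local notation "Qbar" => AlgebraicClosure ℚ
local notation "GQ" => (AlgebraicClosure ℚ ≃ₐ[ℚ] AlgebraicClosure ℚ)

attribute [local instance] Fermat.Agent.S13.CU.Descent.qbarAlgebra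

variable {W' : Affine ℚ}

/-- A Galois-stable subgroup is mapped onto itself by every Galois element. -/
theorem image_pointMap_eq (C : AddSubgroup (W'⁄Qbar).Point)
    (hstab : ∀ σ : GQ, ∀ Q ∈ C, σ • Q ∈ C) (σ : GQ) :
    (Point.map (σ : Qbar →ₐ[ℚ] Qbar) : (W'⁄Qbar).Point →+ (W'⁄Qbar).Point) ''
      (C : Set (W'⁄Qbar).Point) = (C : Set (W'⁄Qbar).Point) := by
  ext Q
  constructor
  · rintro ⟨P, hP, rfl⟩
    exact hstab σ P hP
  · intro hQ
    refine ⟨σ⁻¹ • Q, hstab σ⁻¹ Q hQ, ?_⟩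
    change σ • (σ⁻¹ • Q) = Q
    rw [smul_inv_smul]

theorem coe_bcSubgroup (C : AddSubgroup (W'⁄Qbar).Point) :
    (bcSubgroup (Ω := ℂ) C : Set (W'⁄ℂ).Point) =
      (Point.map (Algebra.ofId Qbar ℂ) : (W'⁄Qbar).Point →+ (W'⁄ℂ).Point) ''
        (C : Set (W'⁄Qbar).Point) := by
  ext P
  rw [SetLike.mem_coe, mem_bcSubgroup, Set.mem_image]
  rfl

/-- **The rational model of Vélu's curve.** -/
theorem exists_rat_velu (C : AddSubgroup (W'⁄Qbar).Point)
    (hstab : ∀ σ : GQ, ∀ Q ∈ C, σ • Q ∈ C) :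
    ∃ t₀ w₀ : ℚ,
      (veluOf W' t₀ w₀).baseChange Qbar
        = veluCurve (W'.baseChange Qbar) (C : Set (W'⁄Qbar).Point) ∧
      (veluOf W' t₀ w₀).baseChange ℂ
        = veluCurve (W'.baseChange ℂ) (bcSubgroup (Ω := ℂ) C : Set (W'⁄ℂ).Point) := by
  obtain ⟨t₀, ht₀⟩ := Fermat.Agent.S13.Local.RationalCoords.exists_rat_of_fixed
    (x := veluT (W'.baseChange Qbar) (C : Set (W'⁄Qbar).Point)) (fun σ => by
      have h := veluT_pointMap (W' := W') (σ : Qbar →ₐ[ℚ] Qbar) (C : Set (W'⁄Qbar).Point)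
      rw [image_pointMap_eq C hstab σ] at h
      exact h.symm)
  obtain ⟨w₀, hw₀⟩ := Fermat.Agent.S13.Local.RationalCoords.exists_rat_of_fixed
    (x := veluW (W'.baseChange Qbar) (C : Set (W'⁄Qbar).Point)) (fun σ => by
      have h := veluW_pointMap (W' := W') (σ : Qbar →ₐ[ℚ] Qbar) (C : Set (W'⁄Qbar).Point)
      rw [image_pointMap_eq C hstab σ] at h
      exact h.symm)
  refine ⟨t₀, w₀, ?_, ?_⟩
  · rw [veluCurve_eq_veluOf, ← ht₀, ← hw₀]
    exact (veluOf_map (algebraMap ℚ Qbar) W' t₀ w₀).symm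
  · rw [veluCurve_eq_veluOf, coe_bcSubgroup, veluT_pointMap, veluW_pointMap, ← ht₀, ← hw₀]
    have e : ∀ r : ℚ, (Algebra.ofId Qbar ℂ) (algebraMap ℚ Qbar r) = algebraMap ℚ ℂ r := fun r =>
      (IsScalarTower.algebraMap_apply ℚ Qbar ℂ r).symm
    rw [e, e]
    exact (veluOf_map (algebraMap ℚ ℂ) W' t₀ w₀).symm

theorem exists_isVeluIsog_congr {K : Type*} [Field K] [DecidableEq K] {W V V₂ : WeierstrassCurve K}
    (e : V₂ = V) {C : AddSubgroup W.toAffine.Point}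
    (h : ∃ φ : W.toAffine.Point →+ V.toAffine.Point, IsVeluIsog W V C φ ∧ IsMulVelu W V C φ) :
    ∃ φ : W.toAffine.Point →+ V₂.toAffine.Point, IsVeluIsog W V₂ C φ ∧ IsMulVelu W V₂ C φ := by
  subst e
  exact h

/-- **(V2-map)** The quotient of a short curve over `ℚ` by a Galois-stable subgroup of prime
order. -/
theorem exists_quotient (W' : Affine ℚ) [hs : W'.IsShortNF] (hΔ : W'.Δ ≠ 0)
    (C : AddSubgroup (W'⁄Qbar).Point) {p : ℕ} (hp : p.Prime) (hcard : Nat.card C = p)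
    (hstab : ∀ σ : GQ, ∀ Q ∈ C, σ • Q ∈ C) :
    ∃ (V' : Affine ℚ) (φ : (W'⁄Qbar).Point →+ (V'⁄Qbar).Point)
      (ψ : (V'⁄Qbar).Point →+ (W'⁄Qbar).Point),
      V'.Δ ≠ 0 ∧ V'.a₁ = 0 ∧ V'.a₂ = 0 ∧ V'.a₃ = 0 ∧
      V'.baseChange Qbar = veluCurve (W'.baseChange Qbar) (C : Set (W'⁄Qbar).Point) ∧
      IsVeluIsog (W'.baseChange Qbar) (V'.baseChange Qbar) C φ ∧
      IsMulVelu (W'.baseChange Qbar) (V'.baseChange Qbar) C φ ∧
      (∀ (σ : GQ) (P : (W'⁄Qbar).Point), φ (σ • P) = σ • φ P) ∧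
      (∀ P : (W'⁄Qbar).Point, ψ (φ P) = p • P) ∧
      (∀ (σ : GQ) (P : (V'⁄Qbar).Point), ψ (σ • P) = σ • ψ P) := by
  obtain ⟨t₀, w₀, hQ, hC⟩ := exists_rat_velu C hstab
  have hfinC : Finite C := Nat.finite_of_card_ne_zero (by rw [hcard]; exact hp.ne_zero)
  have hfin : (C : Set (W'⁄Qbar).Point).Finite := Set.toFinite _
  -- the complex side
  have hsc : (W'.baseChange ℂ).IsShortNF :=
    ⟨by simp [WeierstrassCurve.baseChange, a₁_of_isShortNF],
     by simp [WeierstrassCurve.baseChange, a₂_of_isShortNF],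
     by simp [WeierstrassCurve.baseChange, a₃_of_isShortNF]⟩
  have hΔc : (W'.baseChange ℂ).Δ ≠ 0 := by
    change (W'.map (algebraMap ℚ ℂ)).Δ ≠ 0
    rw [WeierstrassCurve.map_Δ]
    exact (map_ne_zero_iff _ (algebraMap ℚ ℂ).injective).mpr hΔ
  have hcardc : Nat.card (bcSubgroup (Ω := ℂ) C) = p := by
    rw [← hcard]
    exact (Nat.card_congr (AddSubgroup.equivMapOfInjective C
      (Point.baseChange Qbar ℂ : (W'⁄Qbar).Point →+ (W'⁄ℂ).Point)
      (Point.map_injective (W' := W') (Algebra.ofId Qbar ℂ))).toEquiv).symm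
  obtain ⟨hΔV, φc, hφc⟩ := ExistsC.exists_isVeluIsog_complex (W'.baseChange ℂ) hΔc
    (bcSubgroup (Ω := ℂ) C) hp hcardc
  have hφc' : ∃ φc : (W'⁄ℂ).Point →+ ((veluOf W' t₀ w₀)⁄ℂ).Point,
      IsVeluIsog (W'.baseChange ℂ) ((veluOf W' t₀ w₀).baseChange ℂ)
        (bcSubgroup (Ω := ℂ) C) φc ∧
      IsMulVelu (W'.baseChange ℂ) ((veluOf W' t₀ w₀).baseChange ℂ)
        (bcSubgroup (Ω := ℂ) C) φc :=
    exists_isVeluIsog_congr hC ⟨φc, hφc⟩
  obtain ⟨φc', hφc', hmc'⟩ := hφc'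
  obtain ⟨φ, hφ, hφf⟩ := exists_isVeluIsog_of_baseChange hfin hφc'
  have hmul : IsMulVelu (W'.baseChange Qbar) ((veluOf W' t₀ w₀).baseChange Qbar) C φ :=
    IsMulVelu.of_baseChange hfin hφf hmc'
  have hequiv : ∀ (σ : GQ) (P : (W'⁄Qbar).Point), φ (σ • P) = σ • φ P := fun σ P =>
    hφ.map_comm_of_stable hfin σ (fun Q hQ' => hstab σ Q hQ') P
  have hker : ∀ x, φ x = 0 → p • x = 0 := by
    intro x hx
    have hxC : x ∈ C := (hφ.ker x).mp hx
    have h1 : Nat.card C • (⟨x, hxC⟩ : C) = 0 := card_nsmul_eq_zero'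
    rw [hcard] at h1
    exact congrArg Subtype.val h1
  obtain ⟨ψ, hψ⟩ := exists_dual φ hφ.surj p hker
  refine ⟨veluOf W' t₀ w₀, φ, ψ, ?_, a₁_of_isShortNF W', a₂_of_isShortNF W', a₃_of_isShortNF W',
    hQ, hφ, hmul, hequiv, hψ, fun σ P => dual_equivariant hφ.surj hψ hequiv σ P⟩
  intro h0
  apply hΔV
  rw [← hC]
  change ((veluOf W' t₀ w₀).map (algebraMap ℚ ℂ)).Δ = 0
  rw [WeierstrassCurve.map_Δ, h0, map_zero]

end Rat

end Fermat.Agent.S12.Velu.ModelQ
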