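/-
PROJECT M, block [V] (S12/S09 endgame), slice (V2-map) step 1 (helper22): Vélu's identity for the
Weierstrass functions of a superlattice.

On helper9's frame `IsReps L L' R` (`S15/E1/SubLattice`: `L ≤ L'`, `R` representatives of the
nonzero classes of `L'/L`), by the same coset re-summation as `IsReps.G_eq`:

* `weierstrassP_eq` : `℘_{L'}(z) = ℘_L(z) + ∑_{r ∈ R} (℘_L(z - r) - ℘_L(r))`   (all `z`);
* `derivWeierstrassP_eq` : `℘'_{L'}(z) = ℘'_L(z) + ∑_{r ∈ R} ℘'_L(z - r)`        (all `z`).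

No Liouville argument is needed; the identities hold for every `z` with Mathlib's junk values.
-/
import Mathlib
import Fermat.Agent.S15.E1.SubLattice

set_option autoImplicit false

noncomputable section

namespace Fermat.Agent.S12.Velu.WpSum

open Fermat.Agent.S15.E1.SubLattice
open scoped PeriodPair

variable {L L' : PeriodPair} {R : Finset ℂ}

/-- The fibre sum of the `℘`-series of `L'` over the coset `r + L`. -/
theorem hasSum_fibre (L : PeriodPair) (z r : ℂ) :
    HasSum (fun l : L.lattice => 1 / (z - (r + l)) ^ 2 - 1 / (r + (l : ℂ)) ^ 2)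
      (℘[L] (z - r) - ℘[L] r) := by
  have h1 := L.hasSum_weierstrassP (z - r)
  have h2 := L.hasSum_weierstrassP (-r)
  rw [L.weierstrassP_neg] at h2
  refine (h1.sub h2).congr_fun fun l => ?_
  have e1 : z - (r + (l : ℂ)) = z - r - l := by ring
  have e2 : (-r - (l : ℂ)) ^ 2 = (r + l) ^ 2 := by ring
  rw [e1, e2]
  ring

/-- **Vélu's identity for `℘`.** -/
theorem weierstrassP_eq (h : IsReps L L' R) (z : ℂ) :
    ℘[L'] z = ℘[L] z + ∑ r ∈ R, (℘[L] (z - r) - ℘[L] r) := by
  have hsum' : Summable fun l : L'.lattice => 1 / (z - l) ^ 2 - 1 / (l : ℂ) ^ 2 :=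
    (L'.hasSum_weierstrassP z).summable
  have hsumR : Summable fun p : {r // r ∈ insert (0 : ℂ) R} × L.lattice =>
      1 / (z - ((h.paramEquiv p : L'.lattice) : ℂ)) ^ 2
        - 1 / (((h.paramEquiv p : L'.lattice) : ℂ)) ^ 2 :=
    h.paramEquiv.summable_iff.mpr hsum'
  have key : ℘[L'] z = ∑ r ∈ insert (0 : ℂ) R, (℘[L] (z - r) - ℘[L] r) := by
    rw [PeriodPair.weierstrassP, ← h.paramEquiv.tsum_eq, hsumR.tsum_prod' (fun r => ?_),
      tsum_fintype,
      ← Finset.sum_coe_sort (insert (0 : ℂ) R) fun r => ℘[L] (z - r) - ℘[L] r]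
    · refine Finset.sum_congr rfl fun r _ => ?_
      refine ((hasSum_fibre L z r.1).congr_fun fun l => ?_).tsum_eq
      rw [h.coe_paramEquiv]
    · refine (hasSum_fibre L z r.1).summable.congr fun l => ?_
      rw [h.coe_paramEquiv]
  rw [key, Finset.sum_insert h.zero_notMem, sub_zero, L.weierstrassP_zero, sub_zero]

/-- The fibre sum of the `℘'`-series of `L'` over the coset `r + L`. -/
theorem hasSum_fibre_deriv (L : PeriodPair) (z r : ℂ) :
    HasSum (fun l : L.lattice => -2 / (z - (r + l)) ^ 3) (℘'[L] (z - r)) := by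
  refine (L.hasSum_derivWeierstrassP (z - r)).congr_fun fun l => ?_
  have e1 : z - (r + (l : ℂ)) = z - r - l := by ring
  rw [e1]

/-- **Vélu's identity for `℘'`.** -/
theorem derivWeierstrassP_eq (h : IsReps L L' R) (z : ℂ) :
    ℘'[L'] z = ℘'[L] z + ∑ r ∈ R, ℘'[L] (z - r) := by
  have hsum' : Summable fun l : L'.lattice => -2 / (z - l) ^ 3 :=
    (L'.hasSum_derivWeierstrassP z).summable
  have hsumR : Summable fun p : {r // r ∈ insert (0 : ℂ) R} × L.lattice =>
      -2 / (z - ((h.paramEquiv p : L'.lattice) : ℂ)) ^ 3 :=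
    h.paramEquiv.summable_iff.mpr hsum'
  have key : ℘'[L'] z = ∑ r ∈ insert (0 : ℂ) R, ℘'[L] (z - r) := by
    rw [← (L'.hasSum_derivWeierstrassP z).tsum_eq, ← h.paramEquiv.tsum_eq,
      hsumR.tsum_prod' (fun r => ?_), tsum_fintype,
      ← Finset.sum_coe_sort (insert (0 : ℂ) R) fun r => ℘'[L] (z - r)]
    · refine Finset.sum_congr rfl fun r _ => ?_
      refine ((hasSum_fibre_deriv L z r.1).congr_fun fun l => ?_).tsum_eq
      rw [h.coe_paramEquiv]
    · refine (hasSum_fibre_deriv L z r.1).summable.congr fun l => ?_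
      rw [h.coe_paramEquiv]
  rw [key, Finset.sum_insert h.zero_notMem, sub_zero]

end Fermat.Agent.S12.Velu.WpSum
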