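/-
PROJECT M, block [V] (S12/S09 endgame), slice (V2-map) step 2 (helper22): the isogeny
`E_L(ℂ) → E_{L'}(ℂ)` of the short models attached to a lattice `L` and a superlattice `L'`.

On helper9's frame `IsReps L L' R` and main's uniformisation `S13/CU/UnifIso.toPoint`:

* `isog h : (shortOf L).Point →+ (shortOf L').Point`, the map induced by the identity of `ℂ`;
* `isog_toPoint` : `isog h (toPoint L z) = toPoint L' z`;
* `isog_surjective`, `isog_eq_zero_iff` (kernel = image of `L'`), `isog_eq_zero_iff'`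
  (kernel = `{0} ∪ {toPoint L r | r ∈ R}`);
* `xc_isog`, `yc_isog` : **Vélu's coordinate formulas**
  `x'(φ P) = x(P) + ∑_{r ∈ R} (x(P - P_r) - x(P_r))`, `y'(φ P) = y(P) + ∑_{r ∈ R} y(P - P_r)`
  for `P ∉ ker φ`;
* `xc_isog_of_finset`, `yc_isog_of_finset` : the same with the sum over the nonzero points of the
  kernel.
-/
import Mathlib
import Fermat.Agent.S13.CU.UnifIso
import Fermat.Agent.S12.Velu.WpSum

set_option autoImplicit false

noncomputable section

namespace Fermat.Agent.S12.Velu.IsogC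

open Fermat.Agent.S15.E1.SubLattice Fermat.Agent.S13.CU.Defs Fermat.Agent.S13.CU
open Fermat.Agent.S13.Iface WeierstrassCurve.Affine
open scoped PeriodPair

/-- The `y`-coordinate of an affine point, with junk value `0` at the origin. -/
def yc {F : Type*} [Field F] (W : WeierstrassCurve F) : W.toAffine.Point → F
  | .zero => 0
  | .some _ y _ => y

@[simp] theorem yc_zero {F : Type*} [Field F] (W : WeierstrassCurve F) :
    yc W (0 : W.toAffine.Point) = 0 := rfl

@[simp] theorem yc_some {F : Type*} [Field F] (W : WeierstrassCurve F) {x y : F}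
    (h : W.toAffine.Nonsingular x y) : yc W (Point.some x y h) = y := rfl

variable {L L' : PeriodPair} {R : Finset ℂ}

theorem xc_toPoint (L : PeriodPair) {z : ℂ} (hz : z ∉ L.lattice) :
    xc (shortOf L) (UnifIso.toPoint L z) = ℘[L] z := by
  rw [UnifIso.toPoint_of_not_mem L hz]
  rfl

theorem yc_toPoint (L : PeriodPair) {z : ℂ} (hz : z ∉ L.lattice) :
    yc (shortOf L) (UnifIso.toPoint L z) = ℘'[L] z / 2 := by
  rw [UnifIso.toPoint_of_not_mem L hz]
  rfl

/-- The isogeny of short models induced by the identity of `ℂ`. -/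
def isog (h : IsReps L L' R) : (shortOf L).toAffine.Point →+ (shortOf L').toAffine.Point :=
  AddMonoidHom.comp
    (QuotientAddGroup.lift L.lattice.toAddSubgroup (UnifIso.toPoint L')
      (fun z hz => UnifIso.toPoint_of_mem L' (h.le hz)) :
        (ℂ ⧸ L.lattice.toAddSubgroup) →+ (shortOf L').toAffine.Point)
    ((UnifIso.pointEquiv L).symm.toAddMonoidHom :
      (shortOf L).toAffine.Point →+ (ℂ ⧸ L.lattice.toAddSubgroup))

variable (h : IsReps L L' R)
include h

theorem isog_toPoint (z : ℂ) : isog h (UnifIso.toPoint L z) = UnifIso.toPoint L' z := by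
  have h1 : (UnifIso.pointEquiv L).symm (UnifIso.toPoint L z) =
      (z : ℂ ⧸ L.lattice.toAddSubgroup) := by
    rw [AddEquiv.symm_apply_eq]
    rfl
  simp only [isog, AddMonoidHom.comp_apply, AddEquiv.coe_toAddMonoidHom]
  rw [h1]
  rfl

theorem isog_surjective : Function.Surjective (isog h) := by
  intro P'
  obtain ⟨z, rfl⟩ := UnifIso.toPoint_surjective L' P'
  exact ⟨UnifIso.toPoint L z, isog_toPoint h z⟩

theorem isog_toPoint_eq_zero_iff {z : ℂ} :
    isog h (UnifIso.toPoint L z) = 0 ↔ z ∈ L'.lattice := by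
  rw [isog_toPoint, UnifIso.toPoint_eq_zero_iff]

/-- The kernel of the isogeny is `{0} ∪ {P_r | r ∈ R}`. -/
theorem isog_eq_zero_iff (P : (shortOf L).toAffine.Point) :
    isog h P = 0 ↔ P = 0 ∨ ∃ r ∈ R, P = UnifIso.toPoint L r := by
  obtain ⟨z, rfl⟩ := UnifIso.toPoint_surjective L P
  rw [isog_toPoint_eq_zero_iff]
  constructor
  · intro hz
    by_cases hzL : z ∈ L.lattice
    · exact Or.inl (UnifIso.toPoint_of_mem L hzL)
    · obtain ⟨r, hr, hzr⟩ := h.exists_rep z hz hzL
      exact Or.inr ⟨r, hr, (UnifIso.toPoint_eq_iff L).mpr hzr⟩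
  · rintro (h0 | ⟨r, hr, hP⟩)
    · exact h.le ((UnifIso.toPoint_eq_zero_iff L).mp h0)
    · have h1 : z - r ∈ L.lattice := (UnifIso.toPoint_eq_iff L).mp hP
      have h2 : z = (z - r) + r := by ring
      rw [h2]
      exact add_mem (h.le h1) (h.mem r hr)

/-- The points `P_r`, `r ∈ R`, are nonzero and pairwise distinct. -/
theorem toPoint_rep_ne_zero {r : ℂ} (hr : r ∈ R) : UnifIso.toPoint L r ≠ 0 := fun h0 =>
  h.notMem r hr ((UnifIso.toPoint_eq_zero_iff L).mp h0)

theorem toPoint_rep_injOn : Set.InjOn (UnifIso.toPoint L) (R : Set ℂ) := by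
  intro r hr r' hr' heq
  exact h.unique r hr r' hr' ((UnifIso.toPoint_eq_iff L).mp heq)

/-- **Vélu's formula for the `x`-coordinate.** -/
theorem xc_isog {P : (shortOf L).toAffine.Point} (hP : isog h P ≠ 0) :
    xc (shortOf L') (isog h P) = xc (shortOf L) P +
      ∑ r ∈ R, (xc (shortOf L) (P - UnifIso.toPoint L r) - xc (shortOf L) (UnifIso.toPoint L r)) := by
  obtain ⟨z, rfl⟩ := UnifIso.toPoint_surjective L P
  have hz' : z ∉ L'.lattice := fun hz => hP ((isog_toPoint_eq_zero_iff h).mpr hz)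
  have hz : z ∉ L.lattice := fun hz => hz' (h.le hz)
  rw [isog_toPoint, xc_toPoint L' hz', xc_toPoint L hz, WpSum.weierstrassP_eq h z]
  congr 1
  refine Finset.sum_congr rfl fun r hr => ?_
  have hzr : z - r ∉ L.lattice := fun hzr => by
    apply hz'
    have h2 : z = (z - r) + r := by ring
    rw [h2]
    exact add_mem (h.le hzr) (h.mem r hr)
  rw [← map_sub, xc_toPoint L hzr, xc_toPoint L (h.notMem r hr)]

/-- **Vélu's formula for the `y`-coordinate.** -/
theorem yc_isog {P : (shortOf L).toAffine.Point} (hP : isog h P ≠ 0) :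
    yc (shortOf L') (isog h P) = yc (shortOf L) P +
      ∑ r ∈ R, yc (shortOf L) (P - UnifIso.toPoint L r) := by
  obtain ⟨z, rfl⟩ := UnifIso.toPoint_surjective L P
  have hz' : z ∉ L'.lattice := fun hz => hP ((isog_toPoint_eq_zero_iff h).mpr hz)
  have hz : z ∉ L.lattice := fun hz => hz' (h.le hz)
  rw [isog_toPoint, yc_toPoint L' hz', yc_toPoint L hz, WpSum.derivWeierstrassP_eq h z, add_div,
    Finset.sum_div]
  congr 1
  refine Finset.sum_congr rfl fun r hr => ?_
  have hzr : z - r ∉ L.lattice := fun hzr => by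
    apply hz'
    have h2 : z = (z - r) + r := by ring
    rw [h2]
    exact add_mem (h.le hzr) (h.mem r hr)
  rw [← map_sub, yc_toPoint L hzr]

/-- Re-indexing a sum over `R` as a sum over the nonzero points of the kernel. -/
theorem sum_reps_eq_sum_finset {M : Type*} [AddCommMonoid M]
    (S : Finset (shortOf L).toAffine.Point)
    (hS : ∀ Q, Q ∈ S ↔ isog h Q = 0 ∧ Q ≠ 0) (f : (shortOf L).toAffine.Point → M) :
    ∑ r ∈ R, f (UnifIso.toPoint L r) = ∑ Q ∈ S, f Q := by
  classical
  have himg : S = R.image (UnifIso.toPoint L) := by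
    ext Q
    rw [hS, Finset.mem_image, isog_eq_zero_iff h]
    constructor
    · rintro ⟨h0 | ⟨r, hr, rfl⟩, hne⟩
      · exact absurd h0 hne
      · exact ⟨r, hr, rfl⟩
    · rintro ⟨r, hr, rfl⟩
      exact ⟨Or.inr ⟨r, hr, rfl⟩, toPoint_rep_ne_zero h hr⟩
  rw [himg, Finset.sum_image (toPoint_rep_injOn h)]

/-- Vélu's `x`-formula with the sum over the nonzero points of the kernel. -/
theorem xc_isog_of_finset (S : Finset (shortOf L).toAffine.Point)
    (hS : ∀ Q, Q ∈ S ↔ isog h Q = 0 ∧ Q ≠ 0) {P : (shortOf L).toAffine.Point}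
    (hP : isog h P ≠ 0) :
    xc (shortOf L') (isog h P) = xc (shortOf L) P +
      ∑ Q ∈ S, (xc (shortOf L) (P - Q) - xc (shortOf L) Q) := by
  rw [xc_isog h hP, sum_reps_eq_sum_finset h S hS
    (fun Q => xc (shortOf L) (P - Q) - xc (shortOf L) Q)]

/-- Vélu's `y`-formula with the sum over the nonzero points of the kernel. -/
theorem yc_isog_of_finset (S : Finset (shortOf L).toAffine.Point)
    (hS : ∀ Q, Q ∈ S ↔ isog h Q = 0 ∧ Q ≠ 0) {P : (shortOf L).toAffine.Point}
    (hP : isog h P ≠ 0) :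
    yc (shortOf L') (isog h P) = yc (shortOf L) P + ∑ Q ∈ S, yc (shortOf L) (P - Q) := by
  rw [yc_isog h hP, sum_reps_eq_sum_finset h S hS (fun Q => yc (shortOf L) (P - Q))]

end Fermat.Agent.S12.Velu.IsogC
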