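/-
PROJECT M, block [V] (S12/S09 endgame), slice (V2-map) step 5 (helper22): the complex isogeny
`isog h : E_L(ℂ) → E_{L'}(ℂ)` is a Vélu isogeny onto Vélu's curve.

* `isVeluIsog_isog` : `IsVeluIsog (shortOf L) (shortOf L') (isog h).ker (isog h)`;
* `veluCurve_shortOf` : `veluCurve (shortOf L) (isog h).ker = shortOf L'` (helper15's `veluCurve`,
  helper9's `g₂_eq`, `g₃_eq`).
-/
import Mathlib
import Fermat.Agent.S15.Velu.Defs
import Fermat.Agent.S12.Velu.IsogC
import Fermat.Agent.S12.Velu.IsogK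

set_option autoImplicit false

open scoped Classical

noncomputable section

namespace Fermat.Agent.S12.Velu.VeluC

open Fermat.Agent.S15.E1.SubLattice Fermat.Agent.S13.CU.Defs Fermat.Agent.S13.CU
open Fermat.Agent.S13.Iface Fermat.Agent.S13.Local.NodalInst Fermat.Agent.S12.Velu.IsogC
open WeierstrassCurve WeierstrassCurve.Affine Fermat.Agent.S15.Velu
open scoped PeriodPair

variable {L L' : PeriodPair} {R : Finset ℂ} (h : IsReps L L' R)

theorem xc_eq_ptX {F : Type*} [Field F] (W : WeierstrassCurve F) (P : W.toAffine.Point) :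
    xc W P = ptX W P := by
  cases P <;> rfl

theorem yc_eq_ptY {F : Type*} [Field F] (W : WeierstrassCurve F) (P : W.toAffine.Point) :
    IsogC.yc W P = ptY W P := by
  cases P <;> rfl

include h

/-- The nonzero points of the kernel are the images of the representatives. -/
theorem ker_diff_eq_image :
    (((isog h).ker : AddSubgroup (shortOf L).toAffine.Point) : Set (shortOf L).toAffine.Point) \ {0}
      = (UnifIso.toPoint L) '' (R : Set ℂ) := by
  ext Q
  simp only [Set.mem_diff, SetLike.mem_coe, AddMonoidHom.mem_ker, Set.mem_singleton_iff,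
    Set.mem_image, Finset.mem_coe]
  rw [isog_eq_zero_iff h]
  constructor
  · rintro ⟨h0 | ⟨r, hr, rfl⟩, hne⟩
    · exact absurd h0 hne
    · exact ⟨r, hr, rfl⟩
  · rintro ⟨r, hr, rfl⟩
    exact ⟨Or.inr ⟨r, hr, rfl⟩, toPoint_rep_ne_zero h hr⟩

/-- Re-indexing a `finsum` over the nonzero points of the kernel as a sum over `R`. -/
theorem finsum_ker_eq_sum {M : Type*} [AddCommMonoid M] (f : (shortOf L).toAffine.Point → M) :
    ∑ᶠ Q ∈ (((isog h).ker : AddSubgroup (shortOf L).toAffine.Point) :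
      Set (shortOf L).toAffine.Point) \ {0}, f Q = ∑ r ∈ R, f (UnifIso.toPoint L r) := by
  rw [ker_diff_eq_image h, finsum_mem_image (toPoint_rep_injOn h), finsum_mem_coe_finset]

/-- **The complex isogeny is a Vélu isogeny.** -/
theorem isVeluIsog_isog : IsVeluIsog (shortOf L) (shortOf L') (isog h).ker (isog h) where
  surj := isog_surjective h
  ker := fun P => Iff.rfl
  x_eq := fun P hP => by
    have hP' : isog h P ≠ 0 := hP
    rw [finsum_ker_eq_sum h, ← xc_eq_ptX, xc_isog h hP', xc_eq_ptX]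
    simp only [xc_eq_ptX]
  y_eq := fun P hP => by
    have hP' : isog h P ≠ 0 := hP
    rw [finsum_ker_eq_sum h, ← yc_eq_ptY, yc_isog h hP', yc_eq_ptY]
    simp only [yc_eq_ptY]

theorem ptX_toPoint_rep {r : ℂ} (hr : r ∈ R) :
    ptX (shortOf L) (UnifIso.toPoint L r) = ℘[L] r := by
  rw [← xc_eq_ptX, xc_toPoint L (h.notMem r hr)]

/-- **Vélu's curve of the kernel is the short model of the superlattice.** -/
theorem veluCurve_shortOf :
    veluCurve (shortOf L) (((isog h).ker : AddSubgroup (shortOf L).toAffine.Point) :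
      Set (shortOf L).toAffine.Point) = shortOf L' := by
  have hb2 : (shortOf L).b₂ = 0 := by simp [WeierstrassCurve.b₂]
  have hb4 : (shortOf L).b₄ = -L.g₂ / 2 := by
    simp only [WeierstrassCurve.b₄, shortOf_a₁, shortOf_a₃, shortOf_a₄]; ring
  have hb6 : (shortOf L).b₆ = -L.g₃ := by
    simp only [WeierstrassCurve.b₆, shortOf_a₃, shortOf_a₆]; ring
  have hT : veluT (shortOf L) (((isog h).ker : AddSubgroup (shortOf L).toAffine.Point) :
      Set (shortOf L).toAffine.Point) = (∑ r ∈ R, (6 * ℘[L] r ^ 2 - L.g₂ / 2)) / 2 := by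
    unfold veluT
    rw [finsum_ker_eq_sum h]
    congr 1
    refine Finset.sum_congr rfl fun r hr => ?_
    rw [ptX_toPoint_rep h hr, tTerm, hb2, hb4]
    ring
  have hW : veluW (shortOf L) (((isog h).ker : AddSubgroup (shortOf L).toAffine.Point) :
      Set (shortOf L).toAffine.Point)
      = (∑ r ∈ R, (10 * ℘[L] r ^ 3 - 3 / 2 * L.g₂ * ℘[L] r - L.g₃)) / 2 := by
    unfold veluW
    rw [finsum_ker_eq_sum h]
    congr 1
    refine Finset.sum_congr rfl fun r hr => ?_
    rw [ptX_toPoint_rep h hr, wTerm, hb2, hb4, hb6]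
    ring
  unfold veluCurve
  rw [hT, hW, hb2]
  ext
  · rfl
  · rfl
  · rfl
  · show (shortOf L).a₄ - 5 * ((∑ r ∈ R, (6 * ℘[L] r ^ 2 - L.g₂ / 2)) / 2) = (shortOf L').a₄
    rw [shortOf_a₄, shortOf_a₄, h.g₂_eq']
    ring
  · show (shortOf L).a₆ - 0 * _ - 7 * ((∑ r ∈ R, (10 * ℘[L] r ^ 3 - 3 / 2 * L.g₂ * ℘[L] r
      - L.g₃)) / 2) = (shortOf L').a₆
    rw [shortOf_a₆, shortOf_a₆, h.g₃_eq]
    have : ∑ r ∈ R, (140 * L.weierstrassP r ^ 3 - 21 * L.g₂ * L.weierstrassP r - 14 * L.g₃)
        = 14 * ∑ r ∈ R, (10 * ℘[L] r ^ 3 - 3 / 2 * L.g₂ * ℘[L] r - L.g₃) := by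
      rw [Finset.mul_sum]
      refine Finset.sum_congr rfl fun r _ => ?_
      ring
    rw [this]
    ring

end Fermat.Agent.S12.Velu.VeluC
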