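/-
PROJECT M, block [V] (S12/S09 endgame), slice (V2-model) step 2 (helper22): the multiplicative form
of Vélu's formula as a property of an isogeny, over `ℂ` (from `ProdC.prod_eq`) and its descent to a
subfield.

`IsMulVelu W V C φ` : for every nonzero `2`-torsion point `T ∉ C` and every `P` with `P ∉ C`,
`P + T ∉ C`,

  `(x'(φ P) - x'(φ T)) * ∏_{r ∈ C \ 0} (x(r) - x(T)) = ∏_{r ∈ C} (x(P - r) - x(T))`.
-/
import Mathlib
import Fermat.Agent.S12.Velu.VeluC
import Fermat.Agent.S12.Velu.ProdC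
import Fermat.Agent.S13.CU.HalfPeriods

set_option autoImplicit false

open scoped Classical

noncomputable section

namespace Fermat.Agent.S12.Velu

open WeierstrassCurve WeierstrassCurve.Affine Fermat.Agent.S13.Local.NodalInst

/-- The multiplicative form of Vélu's formula. -/
structure IsMulVelu {K : Type*} [Field K] [DecidableEq K] (W V : WeierstrassCurve K)
    (C : AddSubgroup W.toAffine.Point) (φ : W.toAffine.Point →+ V.toAffine.Point) : Prop where
  m_eq : ∀ T : W.toAffine.Point, T ≠ 0 → T + T = 0 → T ∉ C → ∀ P : W.toAffine.Point,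
    P ∉ C → P + T ∉ C →
    (ptX V (φ P) - ptX V (φ T)) *
        ∏ᶠ r ∈ (C : Set W.toAffine.Point) \ {0}, (ptX W r - ptX W T)
      = ∏ᶠ r ∈ (C : Set W.toAffine.Point), (ptX W (P - r) - ptX W T)

namespace MulVelu

open Fermat.Agent.S15.E1.SubLattice Fermat.Agent.S13.CU.Defs Fermat.Agent.S13.CU
open Fermat.Agent.S13.Iface Fermat.Agent.S12.Velu.IsogC Fermat.Agent.S12.Velu.VeluC
open Fermat.Agent.S13.CU.ValuationSum
open scoped PeriodPair

variable {L L' : PeriodPair} {R : Finset ℂ} (h : IsReps L L' R)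

theorem ptX_toPoint' (L : PeriodPair) {z : ℂ} (hz : z ∉ L.lattice) :
    ptX (shortOf L) (UnifIso.toPoint L z) = ℘[L] z := by
  rw [← xc_eq_ptX, xc_toPoint L hz]

/-- A half period gives `HalfPeriod` data. -/
theorem exists_halfPeriod (L : PeriodPair) {s : ℂ} (hs : s ∉ L.lattice)
    (h2s : s + s ∈ L.lattice) : ∃ D : ℂ, HalfPeriod L s (℘[L] s) D := by
  have h2 : 2 * s ∈ L.lattice := by rwa [two_mul]
  obtain ⟨c, hc0, hc⟩ := HalfPeriods.exists_halfProd_eq L hs h2
  exact ⟨c, hs, h2s, hc0, fun z hz hzs => hc z hz hzs⟩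

include h

/-- The kernel is the image of `{0} ∪ R`. -/
theorem ker_eq_image :
    (((isog h).ker : AddSubgroup (shortOf L).toAffine.Point) : Set (shortOf L).toAffine.Point)
      = (UnifIso.toPoint L) '' ((insert (0 : ℂ) R : Finset ℂ) : Set ℂ) := by
  ext Q
  simp only [SetLike.mem_coe, AddMonoidHom.mem_ker, Set.mem_image, Finset.mem_coe,
    Finset.mem_insert]
  rw [isog_eq_zero_iff h]
  constructor
  · rintro (h0 | ⟨r, hr, rfl⟩)
    · exact ⟨0, Or.inl rfl, by rw [h0, map_zero]⟩
    · exact ⟨r, Or.inr hr, rfl⟩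
  · rintro ⟨r, (rfl | hr), rfl⟩
    · exact Or.inl (map_zero _)
    · exact Or.inr ⟨r, hr, rfl⟩

theorem toPoint_injOn_insert :
    Set.InjOn (UnifIso.toPoint L) ((insert (0 : ℂ) R : Finset ℂ) : Set ℂ) := by
  intro r hr r' hr' heq
  exact ProdC.unique' h (Finset.mem_coe.mp hr) (Finset.mem_coe.mp hr')
    ((UnifIso.toPoint_eq_iff L).mp heq)

/-- **The complex isogeny satisfies the multiplicative Vélu formula.** -/
theorem isMulVelu_isog : IsMulVelu (shortOf L) (shortOf L') (isog h).ker (isog h) where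
  m_eq := by
    intro T hT0 h2T hTC P hPC hPTC
    obtain ⟨s, rfl⟩ := UnifIso.toPoint_surjective L T
    obtain ⟨z, rfl⟩ := UnifIso.toPoint_surjective L P
    have hs : s ∉ L.lattice := fun hmem => hT0 (UnifIso.toPoint_of_mem L hmem)
    have h2s : s + s ∈ L.lattice := by
      rw [← map_add] at h2T
      exact (UnifIso.toPoint_eq_zero_iff L).mp h2T
    have hs' : s ∉ L'.lattice := fun hmem =>
      hTC (AddMonoidHom.mem_ker.mpr ((isog_toPoint_eq_zero_iff h).mpr hmem))
    have hz' : z ∉ L'.lattice := fun hmem =>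
      hPC (AddMonoidHom.mem_ker.mpr ((isog_toPoint_eq_zero_iff h).mpr hmem))
    have hzs' : z + s ∉ L'.lattice := fun hmem => hPTC (by
      rw [← map_add]
      exact AddMonoidHom.mem_ker.mpr ((isog_toPoint_eq_zero_iff h).mpr hmem))
    obtain ⟨D, hL⟩ := exists_halfPeriod L hs h2s
    obtain ⟨D', hL'⟩ := exists_halfPeriod L' hs' (h.le h2s)
    have key := ProdC.prod_eq h hL hL' hz' hzs'
    have hreg : ∀ r ∈ insert (0 : ℂ) R, z - r ∉ L.lattice := fun r hr hmem => hz' (by
      have : z = (z - r) + r := by ring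
      rw [this]
      exact L'.lattice.add_mem (h.le hmem) (ProdC.mem' h hr))
    rw [isog_toPoint, isog_toPoint, ptX_toPoint' L' hz', ptX_toPoint' L' hs', ptX_toPoint' L hs,
      ker_diff_eq_image h, finprod_mem_image (toPoint_rep_injOn h), finprod_mem_coe_finset,
      ker_eq_image h, finprod_mem_image (toPoint_injOn_insert h), finprod_mem_coe_finset]
    rw [Finset.prod_congr rfl (fun r hr => by rw [ptX_toPoint' L (h.notMem r hr)])]
    rw [key]
    refine Finset.prod_congr rfl fun r hr => ?_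
    rw [← map_sub, ptX_toPoint' L (hreg r hr)]

end MulVelu

/-- A ring homomorphism commutes with a finite `finprod`. -/
theorem ringHom_finprod_mem {A B ι : Type*} [CommSemiring A] [CommSemiring B] (g : A →+* B)
    (f : ι → A) {s : Set ι} (hs : s.Finite) : g (∏ᶠ i ∈ s, f i) = ∏ᶠ i ∈ s, g (f i) :=
  g.toMonoidHom.map_finprod_mem f hs

section Descent

variable {R : Type*} [CommRing R] {W' V' : Affine R}
variable {F Ω : Type*} [Field F] [Field Ω] [DecidableEq F] [DecidableEq Ω]
  [Algebra R F] [Algebra R Ω] [Algebra F Ω] [IsScalarTower R F Ω]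

variable {C : AddSubgroup (W'⁄F).Point} {φc : (W'⁄Ω).Point →+ (V'⁄Ω).Point}
  {φ : (W'⁄F).Point →+ (V'⁄F).Point}

/-- **Descent of the multiplicative Vélu formula.** -/
theorem IsMulVelu.of_baseChange (hC : (C : Set (W'⁄F).Point).Finite)
    (hφf : ∀ P, Point.baseChange F Ω (φ P) = φc (Point.baseChange F Ω P))
    (hm : IsMulVelu (W'.baseChange Ω) (V'.baseChange Ω) (bcSubgroup C) φc) :
    IsMulVelu (W'.baseChange F) (V'.baseChange F) C φ where
  m_eq := by
    intro T hT0 h2T hTC P hPC hPTC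
    have hinjW : Function.Injective (Point.baseChange F Ω : (W'⁄F).Point →+ (W'⁄Ω).Point) :=
      Point.map_injective (W' := W') (Algebra.ofId F Ω)
    have halg : Function.Injective (algebraMap F Ω) := (algebraMap F Ω).injective
    have hfin0 : ((C : Set (W'⁄F).Point) \ {0}).Finite := hC.subset Set.sdiff_subset
    -- the two index sets over `Ω`
    have himg : (bcSubgroup (Ω := Ω) C : Set (W'⁄Ω).Point) =
        (Point.baseChange F Ω : (W'⁄F).Point →+ (W'⁄Ω).Point) '' (C : Set (W'⁄F).Point) := by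
      ext Q
      rw [SetLike.mem_coe, mem_bcSubgroup, Set.mem_image]
      rfl
    have himg0 : (bcSubgroup (Ω := Ω) C : Set (W'⁄Ω).Point) \ {0} =
        (Point.baseChange F Ω : (W'⁄F).Point →+ (W'⁄Ω).Point) ''
          ((C : Set (W'⁄F).Point) \ {0}) := by
      ext Q
      constructor
      · rintro ⟨hQ, hQ0⟩
        obtain ⟨Q₀, hQ₀, rfl⟩ := mem_bcSubgroup.mp hQ
        refine ⟨Q₀, ⟨hQ₀, ?_⟩, rfl⟩
        intro h0
        apply hQ0
        rw [Set.mem_singleton_iff] at h0 ⊢
        rw [h0, map_zero]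
      · rintro ⟨Q₀, ⟨hQ₀, hQ0⟩, rfl⟩
        refine ⟨mem_bcSubgroup.mpr ⟨Q₀, hQ₀, rfl⟩, ?_⟩
        intro h0
        apply hQ0
        rw [Set.mem_singleton_iff] at h0 ⊢
        apply hinjW
        rw [h0, map_zero]
    have hPT : Point.baseChange F Ω P + Point.baseChange F Ω T ∉ bcSubgroup (Ω := Ω) C := by
      intro hmem
      rw [← map_add] at hmem
      exact hPTC (baseChange_mem_bcSubgroup.mp hmem)
    have h1 := hm.m_eq (Point.baseChange F Ω T)
      (fun h0 => hT0 (hinjW (by rw [h0, map_zero])))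
      (by rw [← map_add, h2T, map_zero])
      (fun hmem => hTC (baseChange_mem_bcSubgroup.mp hmem))
      (Point.baseChange F Ω P)
      (fun hmem => hPC (baseChange_mem_bcSubgroup.mp hmem)) hPT
    rw [← hφf, ← hφf, himg0, finprod_mem_image (hinjW.injOn), himg,
      finprod_mem_image (hinjW.injOn)] at h1
    apply halg
    have eX : ∀ Q : (W'⁄F).Point, ptX (W'.baseChange Ω) (Point.baseChange F Ω Q)
        = algebraMap F Ω (ptX (W'.baseChange F) Q) := fun Q => ptX_map (Algebra.ofId F Ω) Q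
    have eX' : ∀ Q : (V'⁄F).Point, ptX (V'.baseChange Ω) (Point.baseChange F Ω Q)
        = algebraMap F Ω (ptX (V'.baseChange F) Q) := fun Q => ptX_map (Algebra.ofId F Ω) Q
    have e1 : algebraMap F Ω (∏ᶠ r ∈ (C : Set (W'⁄F).Point) \ {0},
          (ptX (W'.baseChange F) r - ptX (W'.baseChange F) T))
        = ∏ᶠ r ∈ (C : Set (W'⁄F).Point) \ {0},
          (ptX (W'.baseChange Ω) (Point.baseChange F Ω r)
            - ptX (W'.baseChange Ω) (Point.baseChange F Ω T)) := by
      rw [ringHom_finprod_mem _ _ hfin0]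
      refine finprod_mem_congr rfl fun r _ => ?_
      rw [eX, eX, map_sub]
    have e2 : algebraMap F Ω (∏ᶠ r ∈ (C : Set (W'⁄F).Point),
          (ptX (W'.baseChange F) (P - r) - ptX (W'.baseChange F) T))
        = ∏ᶠ r ∈ (C : Set (W'⁄F).Point),
          (ptX (W'.baseChange Ω) (Point.baseChange F Ω P - Point.baseChange F Ω r)
            - ptX (W'.baseChange Ω) (Point.baseChange F Ω T)) := by
      rw [ringHom_finprod_mem _ _ hC]
      refine finprod_mem_congr rfl fun r _ => ?_
      rw [← map_sub (Point.baseChange F Ω), eX, eX, map_sub]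
    rw [map_mul, map_sub, e1, e2, ← eX', ← eX']
    exact h1

end Descent

end Fermat.Agent.S12.Velu
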