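/-
PROJECT M, block [V] (S12/S09 endgame), slice (V2-map) step 6 (helper22): existence of the complex
Vélu isogeny for an arbitrary short curve over `ℂ` and an arbitrary subgroup of prime order.

* `isReps_divPair` : helper9's frame `IsReps L₁ (divPair L₁ N) {k ω₁ / N | 0 < k < N}`;
* `exists_isReps_of_card_prime` : for a subgroup `Cc` of prime order of `(shortOf L).Point` there
  are `L'`, `R`, `h : IsReps L L' R` with `(isog h).ker = Cc`  (helper9's `CyclicBasis`);
* `exists_isVeluIsog_complex` : for `W` short over `ℂ`, `Δ ≠ 0`, `Cc` of prime order, a Vélu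
  isogeny `W → veluCurve W Cc` with kernel `Cc`, and `(veluCurve W Cc).Δ ≠ 0`.
-/
import Mathlib
import Fermat.Agent.S12.Velu.VeluC
import Fermat.Agent.S12.Velu.MulVelu
import Fermat.Agent.S15.E1.CyclicBasis
import Fermat.Agent.S15.E1.DivPair
import Fermat.Agent.S13.CU.Uniformize

set_option autoImplicit false

noncomputable section

namespace Fermat.Agent.S12.Velu.ExistsC

open Fermat.Agent.S15.E1.SubLattice Fermat.Agent.S15.E1.DivPair Fermat.Agent.S15.E1.CyclicBasis
open Fermat.Agent.S13.CU.Defs Fermat.Agent.S13.CU Fermat.Agent.S12.Velu.IsogC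
open Fermat.Agent.S12.Velu.VeluC Fermat.Agent.S12.Velu Fermat.Agent.S15.Velu
open WeierstrassCurve.Affine

/-- membership in `divPair L₁ N` -/
theorem mem_divPair_iff (L₁ : PeriodPair) (N : ℕ) [NeZero N] (w : ℂ) :
    w ∈ (divPair L₁ N).lattice ↔ ∃ k : ℤ, w - k * (L₁.ω₁ / N) ∈ L₁.lattice := by
  constructor
  · intro hw
    obtain ⟨a, b, rfl⟩ := PeriodPair.mem_lattice.mp hw
    refine ⟨a, PeriodPair.mem_lattice.mpr ⟨0, b, ?_⟩⟩
    simp only [divPair_ω₁, divPair_ω₂, Int.cast_zero, zero_mul, zero_add]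
    ring
  · rintro ⟨k, hk⟩
    obtain ⟨a, b, hab⟩ := PeriodPair.mem_lattice.mp hk
    have hN := natCast_ne_zero N
    refine PeriodPair.mem_lattice.mpr ⟨k + a * N, b, ?_⟩
    simp only [divPair_ω₁, divPair_ω₂, Int.cast_add, Int.cast_mul, Int.cast_natCast]
    have : w = k * (L₁.ω₁ / N) + (a * L₁.ω₁ + b * L₁.ω₂) := by rw [hab]; ring
    rw [this]
    field_simp
    ring

/-- The representatives `k ω₁ / N`, `0 < k < N`, of the nonzero classes of `divPair L₁ N` mod
`L₁`. -/
theorem isReps_divPair (L₁ : PeriodPair) (N : ℕ) [NeZero N] :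
    IsReps L₁ (divPair L₁ N) ((Finset.Ico 1 N).image (rep L₁ N)) where
  le := lattice_le_divPair L₁ N
  mem := fun r hr => by
    obtain ⟨k, -, rfl⟩ := Finset.mem_image.mp hr
    exact rep_mem_divPair L₁ N k
  notMem := fun r hr => by
    obtain ⟨k, hk, rfl⟩ := Finset.mem_image.mp hr
    rw [Finset.mem_Ico] at hk
    exact rep_notMem_lattice L₁ N hk.1 hk.2
  exists_rep := fun z hz hzL => by
    obtain ⟨k, hk⟩ := (mem_divPair_iff L₁ N z).mp hz
    have hNpos : (0 : ℤ) < N := by exact_mod_cast Nat.pos_of_ne_zero (NeZero.ne N)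
    set j : ℤ := k % N with hj
    have hj0 : 0 ≤ j := Int.emod_nonneg _ hNpos.ne'
    have hjN : j < N := Int.emod_lt_of_pos _ hNpos
    have hkj : k = N * (k / N) + j := (Int.mul_ediv_add_emod k N).symm
    have hN : (N : ℂ) ≠ 0 := natCast_ne_zero N
    -- `z - j ω₁/N ∈ L₁`
    have hzj : z - (j : ℂ) * (L₁.ω₁ / N) ∈ L₁.lattice := by
      have e : z - (j : ℂ) * (L₁.ω₁ / N)
          = (z - k * (L₁.ω₁ / N)) + ((k / N : ℤ) : ℂ) * L₁.ω₁ := by
        have hkC : (k : ℂ) = N * ((k / N : ℤ) : ℂ) + j := by exact_mod_cast hkj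
        rw [hkC]
        field_simp
        ring
      rw [e]
      refine add_mem hk ?_
      have := L₁.lattice.smul_mem (k / N) L₁.ω₁_mem_lattice
      simpa [zsmul_eq_mul] using this
    have hjne : j ≠ 0 := by
      intro h0
      apply hzL
      rw [h0] at hzj
      simpa using hzj
    refine ⟨rep L₁ N j.toNat, ?_, ?_⟩
    · refine Finset.mem_image.mpr ⟨j.toNat, Finset.mem_Ico.mpr ⟨?_, ?_⟩, rfl⟩
      · omega
      · omega
    · have : rep L₁ N j.toNat = (j : ℂ) * (L₁.ω₁ / N) := by
        have hcast : ((j.toNat : ℕ) : ℂ) = (j : ℂ) := by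
          have : ((j.toNat : ℕ) : ℤ) = j := Int.toNat_of_nonneg hj0
          exact_mod_cast this
        simp only [rep, hcast]
        ring
      rw [this]
      exact hzj
  unique := fun r hr r' hr' hrr => by
    obtain ⟨k, hk, rfl⟩ := Finset.mem_image.mp hr
    obtain ⟨k', hk', rfl⟩ := Finset.mem_image.mp hr'
    rw [Finset.mem_Ico] at hk hk'
    rcases le_total k' k with hle | hle
    · have e : rep L₁ N k - rep L₁ N k' = rep L₁ N (k - k') := by
        simp only [rep, Nat.cast_sub hle]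
        ring
      rw [e, rep_mem_lattice_iff] at hrr
      have : k - k' = 0 := Nat.eq_zero_of_dvd_of_lt hrr (by omega)
      have : k = k' := by omega
      rw [this]
    · have e : rep L₁ N k - rep L₁ N k' = -(rep L₁ N (k' - k)) := by
        simp only [rep, Nat.cast_sub hle]
        ring
      rw [e, neg_mem_iff, rep_mem_lattice_iff] at hrr
      have : k' - k = 0 := Nat.eq_zero_of_dvd_of_lt hrr (by omega)
      have : k = k' := by omega
      rw [this]

/-- `IsReps` only depends on the lattice of the small period pair. -/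
theorem isReps_congr_left {L L₁ L' : PeriodPair} {R : Finset ℂ} (hlat : L₁.lattice = L.lattice)
    (h : IsReps L₁ L' R) : IsReps L L' R where
  le := hlat ▸ h.le
  mem := h.mem
  notMem := fun r hr => hlat ▸ h.notMem r hr
  exists_rep := fun z hz hzL => by
    obtain ⟨r, hr, hzr⟩ := h.exists_rep z hz (hlat ▸ hzL)
    exact ⟨r, hr, hlat ▸ hzr⟩
  unique := fun r hr r' hr' hrr => h.unique r hr r' hr' (hlat ▸ hrr)

/-- A subgroup of prime order of `E_L(ℂ)` is the kernel of the isogeny attached to a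
superlattice. -/
theorem exists_isReps_of_card_prime (L : PeriodPair)
    (Cc : AddSubgroup (shortOf L).toAffine.Point) {N : ℕ} (hN : N.Prime)
    (hC : Nat.card Cc = N) :
    ∃ (L' : PeriodPair) (R : Finset ℂ) (h : IsReps L L' R), (isog h).ker = Cc := by
  have : Fact N.Prime := ⟨hN⟩
  have : NeZero N := ⟨hN.ne_zero⟩
  -- the subgroup of `ℂ/Λ`
  let e := UnifIso.pointEquiv L
  let C' : AddSubgroup (ℂ ⧸ L.lattice.toAddSubgroup) := Cc.comap e.toAddMonoidHom
  have hC' : Nat.card C' = N := by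
    rw [← hC]
    refine Nat.card_congr ?_
    exact
      { toFun := fun x => ⟨e x.1, x.2⟩
        invFun := fun y => ⟨e.symm y.1, by
          change e (e.symm y.1) ∈ Cc
          rw [AddEquiv.apply_symm_apply]; exact y.2⟩
        left_inv := fun x => Subtype.ext (e.symm_apply_apply x.1)
        right_inv := fun y => Subtype.ext (e.apply_symm_apply y.1) }
  obtain ⟨L₁, hlat, -, -, hmem⟩ := exists_basis_of_card_prime L C' hC'
  have h : IsReps L (divPair L₁ N) ((Finset.Ico 1 N).image (rep L₁ N)) :=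
    isReps_congr_left hlat (isReps_divPair L₁ N)
  refine ⟨divPair L₁ N, _, h, ?_⟩
  ext P
  obtain ⟨z, rfl⟩ := UnifIso.toPoint_surjective L P
  rw [AddMonoidHom.mem_ker, isog_toPoint_eq_zero_iff, mem_divPair_iff, hlat, ← hmem z]
  rfl

/-- **Existence of the complex Vélu isogeny.** -/
theorem exists_isVeluIsog_complex (W : WeierstrassCurve ℂ) [W.IsShortNF] (hΔ : W.Δ ≠ 0)
    (Cc : AddSubgroup W.toAffine.Point) {N : ℕ} (hN : N.Prime) (hC : Nat.card Cc = N) :
    (veluCurve W (Cc : Set W.toAffine.Point)).Δ ≠ 0 ∧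
      ∃ φc : W.toAffine.Point →+ (veluCurve W (Cc : Set W.toAffine.Point)).toAffine.Point,
        IsVeluIsog W (veluCurve W (Cc : Set W.toAffine.Point)) Cc φc ∧
          IsMulVelu W (veluCurve W (Cc : Set W.toAffine.Point)) Cc φc := by
  obtain ⟨L, rfl⟩ := Uniformize.exists_eq_shortOf W hΔ
  obtain ⟨L', R, h, hker⟩ := exists_isReps_of_card_prime L Cc hN hC
  have e : veluCurve (shortOf L) (Cc : Set (shortOf L).toAffine.Point) = shortOf L' := by
    rw [← hker]
    exact veluCurve_shortOf h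
  rw [e]
  refine ⟨?_, isog h, ?_⟩
  · rw [shortOf_Δ]
    exact HalfPeriods.discr_ne_zero L'
  · rw [← hker]
    exact ⟨isVeluIsog_isog h, MulVelu.isMulVelu_isog h⟩

end Fermat.Agent.S12.Velu.ExistsC
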