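/-
PROJECT M, block [V] (S12/S09 endgame), slice (V2-model) step 1 (helper22): the multiplicative
Vélu / Jacobi identity for the Weierstrass functions of a lattice `L` and a superlattice `L'`.

On helper9's frame `IsReps L L' R`, for a common half period `s` (`s ∉ L'`, `2 s ∈ L`),
`e = ℘_L(s)`, `e' = ℘_{L'}(s)`:

  `(℘_{L'}(z) - e') * ∏_{r ∈ R} (℘_L(r) - e) = ∏_{r ∈ {0} ∪ R} (℘_L(z - r) - e)`

for `z ∉ L'`, `z + s ∉ L'` (`prod_eq`).  Proof as in main's `S13/CU/ValuationSum`: the quotient of
the two sides is `L`-periodic with all orders zero, hence constant (Liouville), and the constant is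
read off at `z → 0`.
-/
import Mathlib
import Fermat.Agent.S13.CU.ValuationSum
import Fermat.Agent.S15.E1.SubLattice

set_option autoImplicit false

noncomputable section

namespace Fermat.Agent.S12.Velu.ProdC

open Complex Filter Topology
open scoped PeriodPair
open Fermat.Agent.S13.CU.Liouville Fermat.Agent.S13.CU.ValuationSum
  Fermat.Agent.S13.CU.ValuationSum.HalfPeriod Fermat.Agent.S15.E1.SubLattice

variable {L L' : PeriodPair} {R : Finset ℂ}

section Reps

variable (h : IsReps L L' R)
include h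

/-- Every element of `L'` is congruent modulo `L` to an element of `{0} ∪ R`. -/
theorem exists_rep' {z : ℂ} (hz : z ∈ L'.lattice) : ∃ r ∈ insert (0 : ℂ) R, z - r ∈ L.lattice := by
  by_cases hzL : z ∈ L.lattice
  · exact ⟨0, Finset.mem_insert_self _ _, by rwa [sub_zero]⟩
  · obtain ⟨r, hr, hzr⟩ := h.exists_rep z hz hzL
    exact ⟨r, Finset.mem_insert_of_mem hr, hzr⟩

/-- Two elements of `{0} ∪ R` which are congruent modulo `L` are equal. -/
theorem unique' {r r' : ℂ} (hr : r ∈ insert (0 : ℂ) R) (hr' : r' ∈ insert (0 : ℂ) R)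
    (hd : r - r' ∈ L.lattice) : r = r' := by
  rcases Finset.mem_insert.mp hr with h0 | hR
  · rcases Finset.mem_insert.mp hr' with h0' | hR'
    · rw [h0, h0']
    · exfalso
      apply h.notMem r' hR'
      rw [h0, zero_sub] at hd
      simpa using L.lattice.neg_mem hd
  · rcases Finset.mem_insert.mp hr' with h0' | hR'
    · exfalso
      apply h.notMem r hR
      rw [h0', sub_zero] at hd
      exact hd
    · exact h.unique r hR r' hR' hd

theorem mem' {r : ℂ} (hr : r ∈ insert (0 : ℂ) R) : r ∈ L'.lattice := by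
  rcases Finset.mem_insert.mp hr with h0 | hR
  · rw [h0]; exact zero_mem _
  · exact h.mem r hR

end Reps

/-! ### The order bookkeeping -/

section Orders

variable (h : IsReps L L' R) {s : ℂ} (hs : s ∉ L'.lattice)
include h hs

theorem sum_ordE (z₀ : ℂ) :
    ∑ r ∈ insert (0 : ℂ) R, ordE L s (z₀ - r) = ordE L' s z₀ := by
  classical
  by_cases ha : z₀ ∈ L'.lattice
  · obtain ⟨r₀, hr₀, hz₀⟩ := exists_rep' h ha
    rw [ordE_of_mem ha, Finset.sum_eq_single_of_mem r₀ hr₀, ordE_of_mem hz₀]
    intro r hr hne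
    have h1 : z₀ - r ∉ L.lattice := fun hmem => hne (by
      apply unique' h hr hr₀
      have : r - r₀ = (z₀ - r₀) - (z₀ - r) := by ring
      rw [this]
      exact L.lattice.sub_mem hz₀ hmem)
    have h2 : z₀ - r + s ∉ L.lattice := by
      intro hmem
      apply hs
      have : s = (z₀ - r + s) - z₀ + r := by ring
      rw [this]
      exact L'.lattice.add_mem (L'.lattice.sub_mem (h.le hmem) ha) (mem' h hr)
    exact ordE_of_notMem h1 h2
  have hnot : ∀ r ∈ insert (0 : ℂ) R, z₀ - r ∉ L.lattice := fun r hr hmem => ha (by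
    have : z₀ = (z₀ - r) + r := by ring
    rw [this]
    exact L'.lattice.add_mem (h.le hmem) (mem' h hr))
  by_cases hb : z₀ + s ∈ L'.lattice
  · obtain ⟨r₀, hr₀, hz₀⟩ := exists_rep' h hb
    have hz₀' : z₀ - r₀ + s ∈ L.lattice := by
      have : z₀ - r₀ + s = z₀ + s - r₀ := by ring
      rw [this]; exact hz₀
    rw [ordE_of_add_mem ha hb, Finset.sum_eq_single_of_mem r₀ hr₀,
      ordE_of_add_mem (hnot r₀ hr₀) hz₀']
    intro r hr hne
    have h2 : z₀ - r + s ∉ L.lattice := fun hmem => hne (by
      apply unique' h hr hr₀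
      have : r - r₀ = (z₀ + s - r₀) - (z₀ - r + s) := by ring
      rw [this]
      exact L.lattice.sub_mem hz₀ hmem)
    exact ordE_of_notMem (hnot r hr) h2
  · rw [ordE_of_notMem ha hb]
    apply Finset.sum_eq_zero
    intro r hr
    have h2 : z₀ - r + s ∉ L.lattice := fun hmem => hb (by
      have : z₀ + s = (z₀ - r + s) + r := by ring
      rw [this]
      exact L'.lattice.add_mem (h.le hmem) (mem' h hr))
    exact ordE_of_notMem (hnot r hr) h2

end Orders

/-! ### The quotient -/

/-- Denominator `∏_{r ∈ {0} ∪ R} (℘_L(z - r) - e)`. -/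
def den (L : PeriodPair) (R : Finset ℂ) (e : ℂ) (z : ℂ) : ℂ :=
  ∏ r ∈ insert (0 : ℂ) R, (℘[L] (z - r) - e)

/-- The quotient `(℘_{L'}(z) - e') / den`. -/
def quot (L L' : PeriodPair) (R : Finset ℂ) (e e' : ℂ) (z : ℂ) : ℂ :=
  (℘[L'] z - e') / den L R e z

theorem meromorphicAt_factor' (L : PeriodPair) (e r z₀ : ℂ) :
    MeromorphicAt (fun z => ℘[L] (z - r) - e) z₀ := by
  have := meromorphicAt_factor L e (-r) z₀
  simpa [sub_eq_add_neg] using this

theorem meromorphicAt_den (L : PeriodPair) (R : Finset ℂ) (e z₀ : ℂ) :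
    MeromorphicAt (den L R e) z₀ := by
  unfold den
  exact MeromorphicAt.fun_prod fun r _ => meromorphicAt_factor' L e r z₀

theorem meromorphic_quot (L L' : PeriodPair) (R : Finset ℂ) (e e' : ℂ) :
    Meromorphic (quot L L' R e e') := fun z₀ =>
  (meromorphicAt_weierstrassP_sub_const L' e' z₀).fun_div (meromorphicAt_den L R e z₀)

theorem order_factor' {s e D : ℂ} (hL : HalfPeriod L s e D) (r z₀ : ℂ) :
    meromorphicOrderAt (fun z => ℘[L] (z - r) - e) z₀ = ((ordE L s (z₀ - r) : ℤ) : WithTop ℤ) := by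
  have := order_factor hL (-r) z₀
  simpa [sub_eq_add_neg] using this

section Main

variable (h : IsReps L L' R) {s e D e' D' : ℂ} (hL : HalfPeriod L s e D)
  (hL' : HalfPeriod L' s e' D')
include h hL hL'

theorem order_quot (z₀ : ℂ) : meromorphicOrderAt (quot L L' R e e') z₀ = 0 := by
  have h1 : meromorphicOrderAt (den L R e) z₀ = ((ordE L' s z₀ : ℤ) : WithTop ℤ) := by
    unfold den
    rw [meromorphicOrderAt_fun_prod fun r _ => meromorphicAt_factor' L e r z₀]
    simp_rw [order_factor' hL]
    rw [← WithTop.coe_sum, sum_ordE h hL'.hs]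
  unfold quot
  rw [fun_meromorphicOrderAt_div (meromorphicAt_weierstrassP_sub_const L' e' z₀)
    (meromorphicAt_den L R e z₀), hL'.order_wp_sub, h1]
  simp

omit hL hL' in
theorem quot_add_mem (e e' z : ℂ) {l : ℂ} (hl : l ∈ L.lattice) :
    quot L L' R e e' (z + l) = quot L L' R e e' z := by
  unfold quot den
  rw [weierstrassP_add_mem L' z (h.le hl)]
  congr 1
  refine Finset.prod_congr rfl fun r _ => ?_
  have : z + l - r = z - r + l := by ring
  rw [this, weierstrassP_add_mem L _ hl]

/-- Liouville: the quotient is constant off a discrete set. -/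
theorem exists_const_quot : ∃ c : ℂ, ∀ z, quot L L' R e e' =ᶠ[𝓝[≠] z] fun _ => c :=
  exists_const_of_periodic_of_order_nonneg L (meromorphic_quot L L' R e e')
    (fun z _ hl => quot_add_mem h e e' z hl) fun z => (order_quot h hL hL' z).ge

omit hL' in
theorem factor_ne_zero' {r : ℂ} (hr : r ∈ R) (hs : s ∉ L'.lattice) : ℘[L] r - e ≠ 0 := by
  refine hL.wp_sub_ne (h.notMem r hr) ?_
  intro hmem
  apply hs
  have : s = (r + s) - r := by ring
  rw [this]
  exact L'.lattice.sub_mem (h.le hmem) (h.mem r hr)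

/-- Evaluation of the constant at `0`. -/
theorem const_eq {c : ℂ} (hc : quot L L' R e e' =ᶠ[𝓝[≠] 0] fun _ => c) :
    c = 1 / ∏ r ∈ R, (℘[L] r - e) := by
  classical
  have hG₀ : Tendsto (fun z => ∏ r ∈ R, (℘[L] (z - r) - e)) (𝓝[≠] 0)
      (𝓝 (∏ r ∈ R, (℘[L] r - e))) := by
    refine tendsto_finsetProd _ fun r hr => ?_
    have hr' : -r ∉ L.lattice := fun hmem => h.notMem r hr (by simpa using L.lattice.neg_mem hmem)
    have h1 : ContinuousAt ℘[L] (0 - r) := by
      rw [zero_sub]
      exact (L.analyticOnNhd_weierstrassP (-r) hr').continuousAt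
    have h2 : ContinuousAt (fun z : ℂ => z - r) 0 := by fun_prop
    have h3 : ContinuousAt (fun z : ℂ => ℘[L] (z - r) - e) 0 :=
      (ContinuousAt.comp (g := ℘[L]) (f := fun z : ℂ => z - r) h1 h2).sub continuousAt_const
    have := h3.tendsto.mono_left (nhdsWithin_le_nhds (s := ({0}ᶜ : Set ℂ)))
    simpa [L.weierstrassP_neg] using this
  have hden : Tendsto (fun z => z ^ 2 * den L R e z) (𝓝[≠] 0)
      (𝓝 (∏ r ∈ R, (℘[L] r - e))) := by
    have := (tendsto_sq_mul_sub L e).mul hG₀
    rw [one_mul] at this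
    refine this.congr' ?_
    filter_upwards with z
    unfold den
    rw [Finset.prod_insert h.zero_notMem, sub_zero]
    ring
  have hne : ∏ r ∈ R, (℘[L] r - e) ≠ 0 := by
    rw [Finset.prod_ne_zero_iff]
    intro r hr
    exact factor_ne_zero' h hL hr hL'.hs
  have hq : Tendsto (quot L L' R e e') (𝓝[≠] 0) (𝓝 (1 / ∏ r ∈ R, (℘[L] r - e))) := by
    refine ((tendsto_sq_mul_sub L' e').div hden hne).congr' ?_
    filter_upwards [self_mem_nhdsWithin] with z (hz : z ≠ 0)
    have : z ^ 2 ≠ 0 := pow_ne_zero 2 hz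
    simp only [Pi.div_apply, quot]
    rw [mul_div_mul_left _ _ this]
  exact tendsto_nhds_unique (tendsto_const_nhds.congr' hc.symm) hq

/-- **The multiplicative Vélu / Jacobi identity.** -/
theorem prod_eq {z : ℂ} (hz : z ∉ L'.lattice) (hzs : z + s ∉ L'.lattice) :
    (℘[L'] z - e') * ∏ r ∈ R, (℘[L] r - e) = ∏ r ∈ insert (0 : ℂ) R, (℘[L] (z - r) - e) := by
  classical
  obtain ⟨c, hc⟩ := exists_const_quot h hL hL'
  have hc0 := const_eq h hL hL' (hc 0)
  -- all factors are regular and nonzero at `z`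
  have hreg : ∀ r ∈ insert (0 : ℂ) R, z - r ∉ L.lattice := fun r hr hmem => hz (by
    have : z = (z - r) + r := by ring
    rw [this]
    exact L'.lattice.add_mem (h.le hmem) (mem' h hr))
  have hreg' : ∀ r ∈ insert (0 : ℂ) R, z - r + s ∉ L.lattice := fun r hr hmem => hzs (by
    have : z + s = (z - r + s) + r := by ring
    rw [this]
    exact L'.lattice.add_mem (h.le hmem) (mem' h hr))
  have hden_ne : den L R e z ≠ 0 := by
    unfold den
    rw [Finset.prod_ne_zero_iff]
    intro r hr
    exact hL.wp_sub_ne (hreg r hr) (hreg' r hr)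
  have hcont_den : ContinuousAt (den L R e) z := by
    unfold den
    refine tendsto_finsetProd _ fun r hr => ?_
    have h1 : ContinuousAt ℘[L] (z - r) :=
      (L.analyticOnNhd_weierstrassP (z - r) (hreg r hr)).continuousAt
    have h2 : ContinuousAt (fun w : ℂ => w - r) z := by fun_prop
    exact (ContinuousAt.comp (g := ℘[L]) (f := fun w : ℂ => w - r) h1 h2).sub continuousAt_const
  have hcont_num : ContinuousAt (fun w => ℘[L'] w - e') z :=
    ((L'.analyticOnNhd_weierstrassP z hz).continuousAt).sub continuousAt_const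
  have hcont : ContinuousAt (quot L L' R e e') z := by
    unfold quot
    exact hcont_num.div hcont_den hden_ne
  have hval := eq_of_eventuallyEq_const (hc z) hcont
  have hne : ∏ r ∈ R, (℘[L] r - e) ≠ 0 := by
    rw [Finset.prod_ne_zero_iff]
    intro r hr
    exact factor_ne_zero' h hL hr hL'.hs
  rw [hc0] at hval
  unfold quot at hval
  change (℘[L'] z - e') / den L R e z = _ at hval
  rw [div_eq_div_iff hden_ne hne, one_mul] at hval
  exact hval

end Main

end Fermat.Agent.S12.Velu.ProdC
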